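/-
ORD / FLATORD (helper68), file 1.  **STAR and exactness of inertia coinvariants for finite flat
`p`-power `G_p`-modules** (`p` odd), i.e. the Galois-module form of "the connected–étale sequence of a
finite flat group scheme over `ℤ_p` is the filtration `I_aug M ⊆ M`, and `M ↦ M_I` is exact"
(Raynaud, `e = 1 < p - 1`).  Extends `TW/FF/Star68` (modules killed by `p`) by dévissage.

* `eq_zero_of_mem_conn_of_fixed` : `(M⁰)^I = 0` for a function order on a `p`-power torsion `M`;
* `Iaug p act W`                 : the subgroup generated by `act τ w - w`, `τ ∈ inertiaSet p`, `w ∈ W`;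
* `star_gen`                     : an inertia-fixed element of `I_aug V` is zero (`V` flat, `p`-power);
* `coinvExact_gen`               : `W ∩ I_aug V = I_aug W` for stable `W ≤ V`.
-/
import Mathlib
import Fermat.Agent.TW.FF.Star68
import Fermat.Agent.TW.FF.Unr68
import Fermat.Agent.TW.Cnt.AdmFlat72

set_option autoImplicit false

noncomputable section

namespace Fermat.Agent.ORD.FlatOrd.CoinvGen68

open Fermat.Agent.S19.Shell64 Fermat.Agent.TW.FF.FunOrder68 Fermat.Agent.TW.FF.FlatModel68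
open Fermat.Agent.TW.FF.Spec72 Fermat.Agent.TW.FF.Red68 Fermat.Agent.TW.FF.ReducedModel68
open Fermat.Agent.TW.FF
open Fermat.Agent.TW.Cnt.AdmFlat72 (act_one act_mul act_add act_zero act_neg act_sub)

variable {p : ℕ} [Fact p.Prime]

section Core

variable {M : Type} [AddCommGroup M] [DistribMulAction (GQp p) M]
  {H : Subalgebra ℤ_[p] (M → PadicAlgCl p)}

/-- **`(M⁰)^I = 0`** for every function order on a `p`-power torsion group (`p` odd). -/
theorem eq_zero_of_mem_conn_of_fixed (hp2 : p ≠ 2) (hH : IsFunOrder ℤ_[p] ℚ_[p] H)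
    (hpn : ∃ n : ℕ, ∀ m : M, p ^ n • m = 0) {x : M} (hx : x ∈ conn hH)
    (hfix : ∀ τ ∈ inertiaSet p, τ • x = x) : x = 0 := by
  by_contra hne
  obtain ⟨n, hn⟩ := hpn
  have hex : ∃ j : ℕ, p ^ j • x = 0 := ⟨n, hn x⟩
  classical
  set j := Nat.find hex with hj
  have hj0 : j ≠ 0 := by
    intro h0
    have := Nat.find_spec hex
    rw [← hj, h0, pow_zero, one_smul] at this
    exact hne this
  obtain ⟨i, hi⟩ := Nat.exists_eq_succ_of_ne_zero hj0
  have hy0 : p ^ i • x ≠ 0 := by
    have : i < j := by omega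
    exact Nat.find_min hex this
  have hpy : p • (p ^ i • x) = 0 := by
    have := Nat.find_spec hex
    rw [← hj, hi, pow_succ', mul_smul] at this
    exact this
  -- the `p`-torsion subgroup
  let W : AddSubgroup M := (nsmulAddMonoidHom p : M →+ M).ker
  have hWmem : ∀ m : M, m ∈ W ↔ p • m = 0 := fun m => by
    rw [AddMonoidHom.mem_ker, nsmulAddMonoidHom_apply]
  have hW : ∀ (σ : GQp p) (m : M), m ∈ W → σ • m ∈ W := by
    intro σ m hm
    rw [hWmem] at hm ⊢
    rw [← smul_comm σ p m, hm, smul_zero]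
  let _ := ClosureSub68.subAction W hW
  have hres := ClosureSub68.IsFunOrder.restrict W hW hH
  have hkillW : ∀ w : W, p • w = 0 := fun w => Subtype.ext (by
    rw [AddSubgroup.coe_nsmul]
    exact (hWmem _).1 w.2)
  let y : W := ⟨p ^ i • x, (hWmem _).2 hpy⟩
  have hyc : y ∈ conn hres := by
    rw [mem_conn_iff]
    exact (cong_resAlg_iff H W y 0).mpr ((conn hH).nsmul_mem hx _)
  have hyf : ∀ τ ∈ inertiaSet p, τ • y = y := by
    intro τ hτ
    apply Subtype.ext
    change τ • (p ^ i • x) = p ^ i • x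
    rw [smul_comm τ (p ^ i) x, hfix τ hτ]
  have := Star68.eq_zero_of_cong_of_fixed hp2 (Unr68.unr p) hres hkillW hyc hyf
  exact hy0 (congrArg Subtype.val this)

end Core

/-! ### `act`-vocabulary (as in `Spec72`) -/

section Aug

variable {V : Type} [AddCommGroup V]

variable (p) in
/-- The subgroup of `V` generated by the `act τ w - w` with `τ` in inertia and `w ∈ W`. -/
def Iaug (act : GQp p → V → V) (W : AddSubgroup V) : AddSubgroup V :=
  AddSubgroup.closure {x : V | ∃ τ ∈ inertiaSet p, ∃ w ∈ W, x = act τ w - w}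

theorem sub_mem_Iaug {act : GQp p → V → V} {W : AddSubgroup V} {τ : GQp p}
    (hτ : τ ∈ inertiaSet p) {w : V} (hw : w ∈ W) : act τ w - w ∈ Iaug p act W :=
  AddSubgroup.subset_closure ⟨τ, hτ, w, hw, rfl⟩

theorem Iaug_mono {act : GQp p → V → V} {W W' : AddSubgroup V} (h : W ≤ W') :
    Iaug p act W ≤ Iaug p act W' := by
  apply AddSubgroup.closure_mono
  rintro x ⟨τ, hτ, w, hw, rfl⟩
  exact ⟨τ, hτ, w, h hw, rfl⟩

/-- If `W` is stable then `Iaug W ≤ W`. -/
theorem Iaug_le {act : GQp p → V → V} {W : AddSubgroup V} (hW : ∀ τ, ∀ v ∈ W, act τ v ∈ W) :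
    Iaug p act W ≤ W := by
  rw [Iaug, AddSubgroup.closure_le]
  rintro x ⟨τ, -, w, hw, rfl⟩
  exact W.sub_mem (hW τ w hw) hw

/-- `Iaug W` is stable under the action, for a stable `W` in a flat module. -/
theorem act_mem_Iaug {act : GQp p → V → V} (hV : LocalFlatModel p V act) {W : AddSubgroup V}
    (hW : ∀ τ, ∀ v ∈ W, act τ v ∈ W) (g : GQp p) {x : V} (hx : x ∈ Iaug p act W) :
    act g x ∈ Iaug p act W := by
  unfold Iaug at hx
  induction hx using AddSubgroup.closure_induction with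
  | mem x hx =>
    obtain ⟨τ, hτ, w, hw, rfl⟩ := hx
    have h1 : act g (act τ w - w) = act (g * τ * g⁻¹) (act g w) - act g w := by
      rw [act_sub hV, ← act_mul hV, ← act_mul hV, mul_assoc, mul_assoc, inv_mul_cancel, mul_one]
    rw [h1]
    exact sub_mem_Iaug (Red68.conj_mem_inertiaSet hτ g) (hW g w hw)
  | zero =>
    rw [act_zero hV]
    exact AddSubgroup.zero_mem _
  | add x y _ _ hx hy =>
    rw [act_add hV]
    exact AddSubgroup.add_mem _ hx hy
  | neg x _ hx =>
    rw [act_neg hV]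
    exact AddSubgroup.neg_mem _ hx

/-- The image of `Iaug` under an equivariant additive map. -/
theorem map_mem_Iaug {V' : Type} [AddCommGroup V'] {act : GQp p → V → V} {act' : GQp p → V' → V'}
    (π : V →+ V') (hπ : ∀ τ v, π (act τ v) = act' τ (π v)) {W : AddSubgroup V} {W' : AddSubgroup V'}
    (hWW' : ∀ w ∈ W, π w ∈ W') {x : V} (hx : x ∈ Iaug p act W) : π x ∈ Iaug p act' W' := by
  unfold Iaug at hx
  induction hx using AddSubgroup.closure_induction with
  | mem x hx =>
    obtain ⟨τ, hτ, w, hw, rfl⟩ := hx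
    rw [map_sub, hπ]
    exact sub_mem_Iaug hτ (hWW' w hw)
  | zero =>
    rw [map_zero]
    exact AddSubgroup.zero_mem _
  | add x y _ _ hx hy =>
    rw [map_add]
    exact AddSubgroup.add_mem _ hx hy
  | neg x _ hx =>
    rw [map_neg]
    exact AddSubgroup.neg_mem _ hx

/-- **STAR for `p`-power flat modules**: an inertia-fixed element of `I_aug V` is zero. -/
theorem star_gen (hp2 : p ≠ 2) {act : GQp p → V → V} (hV : LocalFlatModel p V act)
    (hpn : ∃ n : ℕ, ∀ v : V, p ^ n • v = 0) {x : V}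
    (hfix : ∀ τ ∈ inertiaSet p, act τ x = x) (hx : x ∈ Iaug p act ⊤) : x = 0 := by
  obtain ⟨H, i1, i2, hfin, -, -, e, hmul, hact⟩ := hV
  let _ := galDistribMulAction (F := ℚ_[p]) e hmul
  have hH : IsFunOrder ℤ_[p] ℚ_[p] (redAlg e) := isFunOrder_redAlg (F := ℚ_[p]) e hmul
  have hsm : ∀ (σ : GQp p) (m : V), σ • m = act σ m := fun σ m =>
    (act_eq_galSmul e act hact σ m).symm
  have hle : Iaug p act ⊤ ≤ conn hH := by
    rw [Iaug, AddSubgroup.closure_le]
    rintro w ⟨τ, hτ, v, -, rfl⟩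
    rw [← hsm]
    exact smul_sub_mem_conn hH hτ v
  exact eq_zero_of_mem_conn_of_fixed hp2 hH hpn (hle hx)
    (fun τ hτ => by rw [hsm]; exact hfix τ hτ)

/-- **Exactness of inertia coinvariants on `p`-power flat modules**: for a stable subgroup `W` of a
flat `V`, `W ∩ I_aug V ⊆ I_aug W`. -/
theorem coinvExact_gen (hp2 : p ≠ 2) {act : GQp p → V → V} (hV : LocalFlatModel p V act)
    (hpn : ∃ n : ℕ, ∀ v : V, p ^ n • v = 0) (W : AddSubgroup V)
    (hW : ∀ τ, ∀ v ∈ W, act τ v ∈ W) {x : V} (hxW : x ∈ W) (hx : x ∈ Iaug p act ⊤) :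
    x ∈ Iaug p act W := by
  set J : AddSubgroup V := Iaug p act W with hJ
  have hJstab : ∀ τ n, n ∈ J → act τ n ∈ J := fun τ n hn => act_mem_Iaug hV hW τ hn
  let a : GQp p → V →+ V := fun τ =>
    { toFun := act τ
      map_zero' := act_zero hV τ
      map_add' := act_add hV τ }
  let actQ : GQp p → V ⧸ J → V ⧸ J := fun τ =>
    QuotientAddGroup.map J J (a τ) (fun n hn => hJstab τ n hn)
  have hactQ : ∀ τ (m : V), actQ τ (QuotientAddGroup.mk m) = QuotientAddGroup.mk (act τ m) :=
    fun τ m => rfl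
  have hQ : LocalFlatModel p (V ⧸ J) actQ :=
    Closure68.LocalFlatModel.quotient hV J hJstab actQ hactQ
  have hpnQ : ∃ n : ℕ, ∀ q : V ⧸ J, p ^ n • q = 0 := by
    obtain ⟨n, hn⟩ := hpn
    refine ⟨n, fun q => ?_⟩
    induction q using QuotientAddGroup.induction_on with
    | H v =>
      rw [← QuotientAddGroup.mk_nsmul, hn v, QuotientAddGroup.mk_zero]
  have hfix : ∀ τ ∈ inertiaSet p, actQ τ (QuotientAddGroup.mk x) = QuotientAddGroup.mk x := by
    intro τ hτ
    rw [hactQ, QuotientAddGroup.eq_iff_sub_mem]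
    exact sub_mem_Iaug hτ hxW
  have haug : (QuotientAddGroup.mk x : V ⧸ J) ∈ Iaug p actQ ⊤ :=
    map_mem_Iaug (QuotientAddGroup.mk' J) (fun τ v => (hactQ τ v).symm)
      (fun _ _ => AddSubgroup.mem_top _) hx
  have h0 := star_gen hp2 hQ hpnQ hfix haug
  exact (QuotientAddGroup.eq_zero_iff x).1 h0

end Aug

end Fermat.Agent.ORD.FlatOrd.CoinvGen68
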