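/-
ORD / FLATORD (helper68), file 2 (Mathlib only).  **Hensel splitting of a rank-2 endomorphism.**

`A` a local ring, henselian at its maximal ideal (e.g. adically complete), `V` free of rank `2`,
`f : V →ₗ[A] V` whose characteristic polynomial has the simple root `1` modulo the maximal ideal.
Then `V = V_α ⊕ V_β` with `f = α` on `V_α`, `f = β` on `V_β`, `β ≡ 1`, `α - β` a unit, both summands
free of rank one; the splitting is given by the idempotent `e = (f - β)/(α - β)`.
-/
import Mathlib

set_option autoImplicit false
set_option linter.unusedSectionVars false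

noncomputable section

namespace Fermat.Agent.ORD.FlatOrd.HenselSplit68

open Polynomial IsLocalRing Module

variable {A : Type*} [CommRing A] [IsLocalRing A]
variable {V : Type*} [AddCommGroup V] [Module A V] [Module.Free A V] [Module.Finite A V]

/-- the characteristic polynomial in rank two. -/
theorem charpoly_eq (hrank : finrank A V = 2) (f : V →ₗ[A] V) :
    f.charpoly = X ^ 2 - C (LinearMap.trace A V f) * X + C (LinearMap.det f) := by
  let b : Basis (Fin 2) A V := Module.finBasisOfFinrankEq A V hrank
  rw [← LinearMap.charpoly_toMatrix f b, Matrix.charpoly_fin_two,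
    ← LinearMap.trace_eq_matrix_trace A b f, LinearMap.det_toMatrix b f]

/-- unit plus non-unit is a unit. -/
theorem isUnit_add_of_mem {a b : A} (ha : IsUnit a) (hb : b ∈ maximalIdeal A) : IsUnit (a + b) := by
  by_contra h
  have h1 : a + b ∈ maximalIdeal A := (mem_maximalIdeal _).2 h
  have h2 : a ∈ maximalIdeal A := by
    have := Ideal.sub_mem _ h1 hb
    rwa [add_sub_cancel_right] at this
  exact (mem_maximalIdeal _).1 h2 ha

section Split

variable (f : V →ₗ[A] V) (α β : A)

/-- `f - β`. -/
def gOp : Module.End A V := aeval f (X - C β : A[X])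

theorem gOp_eq : gOp f β = f - β • (1 : Module.End A V) := by
  rw [gOp, map_sub, aeval_X, aeval_C, Algebra.algebraMap_eq_smul_one]

theorem gOp_apply (v : V) : gOp f β v = f v - β • v := by
  rw [gOp_eq]
  rfl

theorem gOp_comm : gOp f β * gOp f α = gOp f α * gOp f β := by
  rw [gOp, gOp, ← map_mul, ← map_mul, mul_comm]

theorem gOp_sub : gOp f β - gOp f α = (α - β) • (1 : Module.End A V) := by
  rw [gOp_eq, gOp_eq, sub_smul]
  abel

theorem gOp_mul_eq_zero (h : f.charpoly = (X - C α) * (X - C β)) : gOp f β * gOp f α = 0 := by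
  rw [gOp, gOp, ← map_mul, mul_comm, ← h]
  exact LinearMap.aeval_self_charpoly f

theorem gOp_sq (h : f.charpoly = (X - C α) * (X - C β)) :
    gOp f β * gOp f β = (α - β) • gOp f β := by
  have h1 : gOp f β = gOp f α + (α - β) • (1 : Module.End A V) := by
    rw [← gOp_sub]; abel
  calc gOp f β * gOp f β = gOp f β * (gOp f α + (α - β) • (1 : Module.End A V)) := by rw [← h1]
    _ = (α - β) • gOp f β := by
      rw [mul_add, gOp_mul_eq_zero f α β h, zero_add, mul_smul_comm, mul_one]

variable {α β}

theorem mul_inv' (hu : IsUnit (α - β)) : (α - β) * (↑hu.unit⁻¹ : A) = 1 := by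
  have := hu.unit.mul_inv
  rwa [IsUnit.unit_spec] at this

theorem inv_mul' (hu : IsUnit (α - β)) : (↑hu.unit⁻¹ : A) * (α - β) = 1 := by
  have := hu.unit.inv_mul
  rwa [IsUnit.unit_spec] at this

/-- the idempotent `e = (f - β)/(α - β)`. -/
def eOp (hu : IsUnit (α - β)) : Module.End A V := (↑hu.unit⁻¹ : A) • gOp f β

theorem smul_eOp (hu : IsUnit (α - β)) : (α - β) • eOp f hu = gOp f β := by
  rw [eOp, smul_smul]
  rw [mul_inv' hu, one_smul]

theorem eOp_idem (hu : IsUnit (α - β)) (h : f.charpoly = (X - C α) * (X - C β)) :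
    IsIdempotentElem (eOp f hu) := by
  have hinv : (↑hu.unit⁻¹ : A) * (α - β) = 1 := inv_mul' hu
  rw [IsIdempotentElem, eOp, smul_mul_smul_comm, gOp_sq f α β h, smul_smul]
  congr 1
  rw [mul_assoc, hinv, mul_one]

theorem one_sub_eOp (hu : IsUnit (α - β)) :
    (1 : Module.End A V) - eOp f hu = (-(↑hu.unit⁻¹ : A)) • gOp f α := by
  have hinv : (↑hu.unit⁻¹ : A) * (α - β) = 1 := inv_mul' hu
  have h1 : gOp f β = gOp f α + (α - β) • (1 : Module.End A V) := by
    rw [← gOp_sub]; abel
  rw [eOp, h1, smul_add, smul_smul, hinv, one_smul, neg_smul]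
  abel

/-- `f = α` on the range of `e`. -/
theorem apply_eOp (hu : IsUnit (α - β)) (h : f.charpoly = (X - C α) * (X - C β)) (v : V) :
    f (eOp f hu v) = α • eOp f hu v := by
  have h0 : gOp f α * eOp f hu = 0 := by
    rw [eOp, mul_smul_comm, gOp_comm, gOp_mul_eq_zero f α β h, smul_zero]
  have := LinearMap.congr_fun h0 v
  rw [Module.End.mul_apply, gOp_apply, LinearMap.zero_apply, sub_eq_zero] at this
  exact this

/-- `f = β` on the kernel of `e`. -/
theorem apply_of_eOp_eq_zero (hu : IsUnit (α - β)) {v : V} (hv : eOp f hu v = 0) :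
    f v = β • v := by
  have h1 := LinearMap.congr_fun (smul_eOp f hu) v
  rw [LinearMap.smul_apply, hv, smul_zero, gOp_apply] at h1
  exact (sub_eq_zero.1 h1.symm)

theorem eOp_comm (hu : IsUnit (α - β)) : eOp f hu * f = f * eOp f hu := by
  rw [eOp, smul_mul_assoc, mul_smul_comm]
  congr 1
  rw [gOp_eq, sub_mul, mul_sub, smul_mul_assoc, mul_smul_comm, one_mul, mul_one]

end Split

/-! ### Existence of the splitting -/

/-- **Hensel splitting.** -/
theorem exists_splitting [HenselianRing A (maximalIdeal A)] (hrank : finrank A V = 2)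
    (f : V →ₗ[A] V) (h1 : f.charpoly.eval 1 ∈ maximalIdeal A)
    (h2 : IsUnit (f.charpoly.derivative.eval 1)) :
    ∃ (α β : A) (hu : IsUnit (α - β)), β - 1 ∈ maximalIdeal A ∧ IsUnit (α - 1) ∧
      f.charpoly = (X - C α) * (X - C β) ∧ IsIdempotentElem (eOp f hu) ∧
      ∃ b : Basis (Fin 2) A V,
        LinearMap.range (eOp f hu) = Submodule.span A {b 0} ∧
        LinearMap.ker (eOp f hu) = Submodule.span A {b 1} := by
  obtain ⟨β, hβroot, hβ1⟩ := HenselianRing.is_henselian f.charpoly (LinearMap.charpoly_monic f) 1 h1
    (h2.map (Ideal.Quotient.mk (maximalIdeal A)))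
  set t := LinearMap.trace A V f with ht
  set d := LinearMap.det f with hd
  have hchar := charpoly_eq hrank f
  rw [← ht, ← hd] at hchar
  -- the root equation
  have hroot : β ^ 2 - t * β + d = 0 := by
    have := hβroot
    rw [IsRoot.def, hchar] at this
    simpa using this
  set α := t - β with hα
  have hfac : f.charpoly = (X - C α) * (X - C β) := by
    have hd' : d = α * β := by
      rw [hα]; linear_combination hroot
    have ht' : t = α + β := by rw [hα]; ring
    rw [hchar, hd', ht', C_add, C_mul]
    ring
  -- `α - β` is a unit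
  have hder : f.charpoly.derivative.eval 1 = 2 - t := by
    rw [hchar]
    simp
    ring
  have hu : IsUnit (α - β) := by
    have e1 : α - β = -(2 - t) + (-2 * (β - 1)) := by rw [hα]; ring
    rw [e1]
    refine isUnit_add_of_mem ?_ (Ideal.mul_mem_left _ _ hβ1)
    rw [← hder]
    exact h2.neg
  have hα1 : IsUnit (α - 1) := by
    have e1 : α - 1 = (α - β) + (β - 1) := by ring
    rw [e1]
    exact isUnit_add_of_mem hu hβ1
  have hidem := eOp_idem f hu hfac
  refine ⟨α, β, hu, hβ1, hα1, hfac, hidem, ?_⟩
  set e := eOp f hu with he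
  have hcompl : IsCompl (LinearMap.range e) (LinearMap.ker e) :=
    LinearMap.IsIdempotentElem.isCompl hidem
  -- both summands are finite and free
  have : Module.Finite A (LinearMap.ker e) :=
    Module.Finite.of_surjective (Submodule.projectionOnto _ _ hcompl.symm)
      (Submodule.projectionOnto_surjective hcompl.symm)
  have : Module.Projective A (LinearMap.range e) :=
    Module.Projective.of_split (LinearMap.range e).subtype
      (Submodule.projectionOnto _ _ hcompl) (Submodule.projectionOnto_comp_subtype hcompl)
  have : Module.Projective A (LinearMap.ker e) :=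
    Module.Projective.of_split (LinearMap.ker e).subtype
      (Submodule.projectionOnto _ _ hcompl.symm) (Submodule.projectionOnto_comp_subtype hcompl.symm)
  have : Module.Free A (LinearMap.range e) := Module.free_of_flat_of_isLocalRing
  have : Module.Free A (LinearMap.ker e) := Module.free_of_flat_of_isLocalRing
  -- trace computation
  have htr : LinearMap.trace A V e = 1 := by
    have hinv : (↑hu.unit⁻¹ : A) * (α - β) = 1 := inv_mul' hu
    rw [he, eOp, map_smul, gOp_eq, map_sub, map_smul, LinearMap.trace_one, hrank, ← ht,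
      smul_eq_mul, smul_eq_mul]
    have e2 : t - β * ((2 : ℕ) : A) = α - β := by rw [hα]; push_cast; ring
    rw [e2, hinv]
  have htr' : LinearMap.trace A V e = (finrank A (LinearMap.range e) : A) :=
    (LinearMap.IsIdempotentElem.isProj_range e hidem).trace
  have hsum : finrank A (LinearMap.range e) + finrank A (LinearMap.ker e) = 2 := by
    rw [← hrank, ← Module.finrank_prod]
    exact (Submodule.prodEquivOfIsCompl _ _ hcompl).finrank_eq
  have hr1 : finrank A (LinearMap.range e) = 1 := by
    have hle : finrank A (LinearMap.range e) ≤ 2 := by omega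
    have hcast : (finrank A (LinearMap.range e) : A) = 1 := by rw [← htr', htr]
    interval_cases hr : finrank A (LinearMap.range e)
    · simp at hcast
    · rfl
    · exfalso
      have : (1 : A) = 0 := by
        have h3 : ((2 : ℕ) : A) = 1 + 1 := by push_cast; ring
        rw [h3] at hcast
        linear_combination hcast
      exact one_ne_zero this
  have hr2 : finrank A (LinearMap.ker e) = 1 := by omega
  let b1 : Basis (Fin 1) A (LinearMap.range e) := Module.finBasisOfFinrankEq A _ hr1
  let b2 : Basis (Fin 1) A (LinearMap.ker e) := Module.finBasisOfFinrankEq A _ hr2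
  let b : Basis (Fin 2) A V :=
    ((b1.prod b2).map (Submodule.prodEquivOfIsCompl _ _ hcompl)).reindex finSumFinEquiv
  have hb0 : b 0 = (b1 0 : V) := by
    have h0 : (0 : Fin 2) = finSumFinEquiv (m := 1) (n := 1) (Sum.inl (0 : Fin 1)) := rfl
    rw [h0]
    simp [b]
  have hb1 : b 1 = (b2 0 : V) := by
    have h0 : (1 : Fin 2) = finSumFinEquiv (m := 1) (n := 1) (Sum.inr (0 : Fin 1)) := rfl
    rw [h0]
    simp [b]
  refine ⟨b, ?_, ?_⟩
  · rw [hb0]
    have h3 : Submodule.span A (Set.range b1) = ⊤ := b1.span_eq
    have h4 : Set.range b1 = {b1 0} := by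
      ext x
      simp only [Set.mem_range, Set.mem_singleton_iff]
      constructor
      · rintro ⟨i, rfl⟩
        rw [Subsingleton.elim i 0]
      · rintro rfl
        exact ⟨0, rfl⟩
    rw [h4] at h3
    have h5 := congrArg (Submodule.map (LinearMap.range e).subtype) h3
    rw [Submodule.map_subtype_top, Submodule.map_span, Set.image_singleton] at h5
    exact h5.symm
  · rw [hb1]
    have h3 : Submodule.span A (Set.range b2) = ⊤ := b2.span_eq
    have h4 : Set.range b2 = {b2 0} := by
      ext x
      simp only [Set.mem_range, Set.mem_singleton_iff]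
      constructor
      · rintro ⟨i, rfl⟩
        rw [Subsingleton.elim i 0]
      · rintro rfl
        exact ⟨0, rfl⟩
    rw [h4] at h3
    have h5 := congrArg (Submodule.map (LinearMap.ker e).subtype) h3
    rw [Submodule.map_subtype_top, Submodule.map_span, Set.image_singleton] at h5
    exact h5.symm

end Fermat.Agent.ORD.FlatOrd.HenselSplit68
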