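/-
ORD / FLATORD, brick F0 (helper92): the Prelude's `GaloisRepAdic.IsOrdinaryAt p` (a condition at
every place `P` of `ℚ̄` above `p`) is equivalent to a single condition on the local Galois group
`GQp p = Gal(ℚ̄_p/ℚ_p)` acting through the Prelude's `localGaloisToGlobal p`, with inertia the
`Spec72.inertiaSet p`.

* `IsLocOrd p ρ` : the local form;
* `isOrdinaryAt_iff_isLocOrd : ρ.IsOrdinaryAt p ↔ IsLocOrd p ρ`.
-/
import Mathlib
import Fermat.Prelude.Def_GaloisRep_LocalConditions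
import Fermat.Agent.TW.Cnt.LocalStruct97
import Fermat.Agent.TW.LocalQ.PlaceConj96
import Fermat.Agent.ES.GAL.InertiaCyclo91

set_option autoImplicit false

noncomputable section

namespace Fermat.Agent.ORD.FlatOrd.LocOrd92

open Fermat.Agent.TW.FF.FlatModel68 Fermat.Agent.TW.FF.Spec72
open Fermat.Agent.TW.Bridge.LocalGlobal97 Fermat.Agent.TW.Bridge.LocalInertia97
open Fermat.Agent.TW.OrdLocal.PadicPlace97 Fermat.Agent.TW.Cnt.LocalStruct97
open Fermat.Agent.TW.LocalQ.PlaceConj96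

open scoped Pointwise

local notation "Qb" => AlgebraicClosure ℚ

variable {A : Type} [CommRing A] [IsLocalRing A]

/-- Local ordinarity: a line `L = A ∙ b 0` stable under the local Galois group, with the local
inertia acting trivially on the quotient. -/
def IsLocOrd (p : ℕ) [Fact p.Prime] (ρ : GaloisRepAdic A) : Prop :=
  ∃ L : Submodule A ρ.V, (∃ b : Module.Basis (Fin 2) A ρ.V, L = A ∙ b 0) ∧
    (∀ τ : GQp p, ∀ v ∈ L, ρ.ρ (localGaloisToGlobal p τ) v ∈ L) ∧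
    (∀ τ ∈ inertiaSet p, ∀ v : ρ.V, ρ.ρ (localGaloisToGlobal p τ) v - v ∈ L)

variable {p : ℕ} [Fact p.Prime]

theorem isLocOrd_of_isOrdinaryAt (ρ : GaloisRepAdic A) (h : ρ.IsOrdinaryAt p) : IsLocOrd p ρ := by
  obtain ⟨L, hb, hD, hI⟩ := h (padicPlace p) (padicPlace_liesOverPrime p)
  exact ⟨L, hb, fun τ v hv => hD _ (localGaloisToGlobal_mem_decompositionSubgroup p τ) v hv,
    fun τ hτ v => hI _ ((mem_inertiaSet_iff τ).mp hτ) v⟩

/-- The action of one Galois element as a linear automorphism. -/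
def actEquiv (ρ : GaloisRepAdic A) (g : Qb ≃ₐ[ℚ] Qb) : ρ.V ≃ₗ[A] ρ.V :=
  LinearEquiv.ofLinearMap (ρ.ρ g) (ρ.ρ g⁻¹)
    (by rw [← Module.End.mul_eq_comp, ← map_mul, mul_inv_cancel, map_one]; rfl)
    (by rw [← Module.End.mul_eq_comp, ← map_mul, inv_mul_cancel, map_one]; rfl)

theorem actEquiv_apply (ρ : GaloisRepAdic A) (g : Qb ≃ₐ[ℚ] Qb) (v : ρ.V) :
    actEquiv ρ g v = ρ.ρ g v := rfl

theorem actEquiv_symm_apply (ρ : GaloisRepAdic A) (g : Qb ≃ₐ[ℚ] Qb) (v : ρ.V) :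
    (actEquiv ρ g).symm v = ρ.ρ g⁻¹ v := rfl

theorem conj_mem_decompositionSubgroup (g σ : Qb ≃ₐ[ℚ] Qb) (P : ValuationSubring Qb)
    (hσ : σ ∈ (g • P).decompositionSubgroup ℚ) :
    g⁻¹ * σ * g ∈ P.decompositionSubgroup ℚ := by
  have h : σ • (g • P) = g • P := hσ
  show (g⁻¹ * σ * g) • P = P
  rw [mul_smul, mul_smul, h, inv_smul_smul]

theorem isOrdinaryAt_of_isLocOrd (ρ : GaloisRepAdic A) (h : IsLocOrd p ρ) : ρ.IsOrdinaryAt p := by
  obtain ⟨L, ⟨b, hb⟩, hD, hI⟩ := h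
  intro P hP
  have hp : p.Prime := Fact.out
  obtain ⟨g, rfl⟩ := exists_smul_eq_of_liesOverPrime hp (padicPlace_liesOverPrime p) hP
  refine ⟨L.map (actEquiv ρ g : ρ.V →ₗ[A] ρ.V), ⟨b.map (actEquiv ρ g), ?_⟩, ?_, ?_⟩
  · rw [hb, Submodule.map_span, Set.image_singleton, Module.Basis.map_apply]
    rfl
  · intro σ hσ v hv
    obtain ⟨w, hw, rfl⟩ := hv
    obtain ⟨τ, hτ⟩ := exists_localGaloisToGlobal_eq p
      (conj_mem_decompositionSubgroup g σ (padicPlace p) hσ)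
    refine ⟨ρ.ρ (localGaloisToGlobal p τ) w, hD τ w hw, ?_⟩
    show ρ.ρ g (ρ.ρ (localGaloisToGlobal p τ) w) = ρ.ρ σ (ρ.ρ g w)
    rw [hτ, ← Module.End.mul_apply, ← Module.End.mul_apply, ← map_mul, ← map_mul]
    congr 2
    group
  · intro σ hσ v
    have h1 : g⁻¹ * σ * g⁻¹⁻¹ ∈ (g⁻¹ • g • padicPlace p).inertiaSubgroupIn ℚ :=
      conj_mem_inertiaSubgroupIn hp hP g⁻¹ hσ
    rw [inv_smul_smul, inv_inv] at h1
    obtain ⟨τ, hτ, hτI⟩ := exists_local_inertia_of_mem_inertia p h1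
    refine ⟨ρ.ρ (localGaloisToGlobal p τ) (ρ.ρ g⁻¹ v) - ρ.ρ g⁻¹ v, hI τ hτI _, ?_⟩
    show ρ.ρ g (ρ.ρ (localGaloisToGlobal p τ) (ρ.ρ g⁻¹ v) - ρ.ρ g⁻¹ v) = ρ.ρ σ v - v
    rw [map_sub, hτ, ← Module.End.mul_apply, ← Module.End.mul_apply, ← Module.End.mul_apply,
      ← map_mul, ← map_mul, ← map_mul]
    have e1 : g * (g⁻¹ * σ * g) * g⁻¹ = σ := by group
    rw [e1, mul_inv_cancel, map_one, Module.End.one_apply]

/-- **F0**: the Prelude's ordinarity at `p` is the local condition on `GQp p`. -/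
theorem isOrdinaryAt_iff_isLocOrd (ρ : GaloisRepAdic A) : ρ.IsOrdinaryAt p ↔ IsLocOrd p ρ :=
  ⟨isLocOrd_of_isOrdinaryAt ρ, isOrdinaryAt_of_isLocOrd ρ⟩

/-- For odd `p` and cyclotomic determinant, some element of the local inertia has determinant
`≡ 2` modulo the maximal ideal (so `≢ 1`). -/
theorem exists_inertia_det (hp2 : p ≠ 2) (ρ : GaloisRepAdic A) (hdet : ρ.DetIsCyclotomic p) :
    ∃ τ0 ∈ inertiaSet p,
      LinearMap.det (ρ.ρ (localGaloisToGlobal p τ0)) - 2 ∈ IsLocalRing.maximalIdeal A := by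
  have hp : p.Prime := Fact.out
  obtain ⟨σ, hσ, h⟩ := Fermat.Agent.ES.GAL.InertiaCyclo91.exists_mem_inertia_sq hp hp2
    (padicPlace p) (padicPlace_liesOverPrime p) 1
  obtain ⟨τ, hτ, hτI⟩ := exists_local_inertia_of_mem_inertia p hσ
  refine ⟨τ, hτI, ?_⟩
  rw [hτ]
  have h1 := hdet.2 1 σ 2 h
  have h2 : Ideal.span {((p ^ 1 : ℕ) : A)} ≤ IsLocalRing.maximalIdeal A := by
    rw [Ideal.span_le, Set.singleton_subset_iff, pow_one]
    exact hdet.1
  have h3 := h2 h1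
  rwa [Nat.cast_ofNat] at h3

end Fermat.Agent.ORD.FlatOrd.LocOrd92
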