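/-
ORD / FLATORD (helper92): unpacking residual ordinarity.  If the residual representation of `ρ`
is ordinary at `p` (local form `IsLocOrd`), there is a basis `b'` of `ρ.V` such that the local
inertia moves every vector of `ρ.V` by an element of `A ∙ b' 0 + 𝔪 V`.
-/
import Mathlib
import Fermat.Agent.ORD.FlatOrd.LocOrd92

set_option autoImplicit false

noncomputable section

namespace Fermat.Agent.ORD.FlatOrd.ResLift92

open Fermat.Agent.TW.FF.FlatModel68 Fermat.Agent.TW.FF.Spec72
open Fermat.Agent.ORD.FlatOrd.LocOrd92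
open scoped TensorProduct

variable {A : Type} [CommRing A] [IsLocalRing A]

local notation "𝔪" => IsLocalRing.maximalIdeal A
local notation "k" => IsLocalRing.ResidueField A

omit [IsLocalRing A] in
/-- Coordinates of an element of `J • ⊤` lie in `J`. -/
theorem repr_mem_of_mem_smul_top {V : Type} [AddCommGroup V] [Module A V] {ι : Type*}
    (b : Module.Basis ι A V) (J : Ideal A) {x : V} (hx : x ∈ J • (⊤ : Submodule A V)) (i : ι) :
    b.repr x i ∈ J := by
  refine Submodule.smul_induction_on hx ?_ ?_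
  · intro a ha v _
    rw [map_smul, Finsupp.smul_apply, smul_eq_mul]
    exact J.mul_mem_right _ ha
  · intro x y hx hy
    rw [map_add, Finsupp.add_apply]
    exact J.add_mem hx hy

omit [IsLocalRing A] in
/-- An element whose coordinates (outside `0`) lie in `J` belongs to `A ∙ b 0 + J V`. -/
theorem mem_span_sup_of_repr_mem {V : Type} [AddCommGroup V] [Module A V]
    (b : Module.Basis (Fin 2) A V) (J : Ideal A) {x : V} (hx : b.repr x 1 ∈ J) :
    x ∈ (A ∙ b 0) ⊔ J • (⊤ : Submodule A V) := by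
  have e : x = b.repr x 0 • b 0 + b.repr x 1 • b 1 := by
    conv_lhs => rw [← b.sum_repr x]
    rw [Fin.sum_univ_two]
  rw [e]
  exact Submodule.add_mem_sup (Submodule.smul_mem _ _ (Submodule.mem_span_singleton_self _))
    (Submodule.smul_mem_smul hx Submodule.mem_top)

variable {p : ℕ} [Fact p.Prime]

theorem exists_basis_of_residual (ρ : GaloisRepAdic A)
    (hres : IsLocOrd p (GaloisRepAdic.ofResidualGaloisRep ρ.residual)) :
    ∃ b' : Module.Basis (Fin 2) A ρ.V, ∀ τ ∈ inertiaSet p, ∀ v : ρ.V,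
      ρ.ρ (localGaloisToGlobal p τ) v - v ∈ (A ∙ b' 0) ⊔ 𝔪 • (⊤ : Submodule A ρ.V) := by
  obtain ⟨Lbar, ⟨bbar, hL⟩, -, hI⟩ := hres
  -- make the types explicit
  change Module.Basis (Fin 2) k (k ⊗[A] ρ.V) at bbar
  change Submodule k (k ⊗[A] ρ.V) at Lbar
  have hI' : ∀ τ ∈ inertiaSet p, ∀ x : k ⊗[A] ρ.V,
      (ρ.ρ (localGaloisToGlobal p τ)).baseChange k x - x ∈ Lbar := hI
  have hL' : Lbar = Submodule.span k {bbar 0} := hL
  -- lift the basis
  have hsurj : Function.Surjective (TensorProduct.mk A k ρ.V 1) :=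
    TensorProduct.mk_surjective A ρ.V k Ideal.Quotient.mk_surjective
  choose f hf using fun i => hsurj (bbar i)
  have hspan : Submodule.span A (Set.range f) = ⊤ :=
    IsLocalRing.span_eq_top_of_tmul_eq_basis f bbar hf
  let b' : Module.Basis (Fin 2) A ρ.V :=
    basisOfTopLeSpanOfCardEqFinrank f hspan.ge (by rw [ρ.finrank_eq]; rfl)
  have hb' : ∀ i, b' i = f i := fun i => by
    rw [coe_basisOfTopLeSpanOfCardEqFinrank]
  have hbb : Algebra.TensorProduct.basis k b' = bbar := by
    apply Module.Basis.eq_of_apply_eq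
    intro i
    rw [Algebra.TensorProduct.basis_apply, hb', ← hf i]
    rfl
  refine ⟨b', fun τ hτ v => ?_⟩
  apply mem_span_sup_of_repr_mem
  have h1 := hI' τ hτ ((1 : k) ⊗ₜ[A] v)
  rw [LinearMap.baseChange_tmul, ← TensorProduct.tmul_sub, hL', Submodule.mem_span_singleton] at h1
  obtain ⟨c, hc⟩ := h1
  have h2 := congrArg (fun y => bbar.repr y 1) hc
  simp only [map_smul, Finsupp.smul_apply, Module.Basis.repr_self, smul_eq_mul] at h2
  rw [Finsupp.single_apply, if_neg (by decide), mul_zero, ← hbb,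
    Algebra.TensorProduct.basis_repr_tmul, Finsupp.smul_apply, Finsupp.mapRange_apply, one_smul]
    at h2
  rw [← IsLocalRing.residue_eq_zero_iff]
  exact h2.symm

end Fermat.Agent.ORD.FlatOrd.ResLift92
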