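/-
ORD / FLATORD (helper92), brick F3-alg: the abstract induction behind
"flat + residually ordinary ⇒ ordinary".

`A` local with `⋂ 𝔪^n = 0`, `V` free of rank 2 with basis `b'`, a group `G` acting `A`-linearly,
`I ⊆ G` a conjugation-stable subset (inertia).  `aug I ρ W` is the `A`-span of the `ρ τ w - w`
(`τ ∈ I`, `w ∈ W`).  Hypotheses:

* residually, `I` moves vectors by elements of the line `A ∙ b' 0`  (`hres`);
* some `σ0 ∈ I` has `det ≡ w`, `w - 1` a unit  (`hdet`);
* exactness of `I`-coinvariants on the graded pieces `𝔪^n V / 𝔪^(n+1) V ⊆ V / 𝔪^(n+1) V`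
  (`hexact`; this is where flatness enters).

Conclusion: the line `L = aug I ρ ⊤ = A ∙ b 0` (`b 0 = ρ σ0 (b' 0) - b' 0`) is `G`-stable, with `I`
acting trivially on `V / L`.
-/
import Mathlib
import Fermat.Agent.ORD.FlatOrd.ResLift92

set_option autoImplicit false

noncomputable section

namespace Fermat.Agent.ORD.FlatOrd.AugLimit92

open Fermat.Agent.ORD.FlatOrd.ResLift92

variable {A : Type} [CommRing A] {V : Type} [AddCommGroup V] [Module A V]
variable {G : Type} [Group G]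

/-- The `A`-span of the `ρ τ w - w`, `τ ∈ I`, `w ∈ W`. -/
def aug (I : Set G) (ρ : G →* Module.End A V) (W : Submodule A V) : Submodule A V :=
  Submodule.span A {x : V | ∃ τ ∈ I, ∃ w ∈ W, x = ρ τ w - w}

theorem sub_mem_aug {I : Set G} {ρ : G →* Module.End A V} {W : Submodule A V} {τ : G}
    (hτ : τ ∈ I) {w : V} (hw : w ∈ W) : ρ τ w - w ∈ aug I ρ W :=
  Submodule.subset_span ⟨τ, hτ, w, hw, rfl⟩

/-- `aug` of `J V` lies in `J • (anything containing all the ρ τ v - v)`. -/
theorem aug_smul_top_le {I : Set G} {ρ : G →* Module.End A V} (J : Ideal A) (N : Submodule A V)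
    (hN : ∀ τ ∈ I, ∀ v : V, ρ τ v - v ∈ N) :
    aug I ρ (J • (⊤ : Submodule A V)) ≤ J • N := by
  rw [aug, Submodule.span_le]
  rintro x ⟨τ, hτ, w, hw, rfl⟩
  refine Submodule.smul_induction_on hw ?_ ?_
  · intro a ha v _
    rw [map_smul, ← smul_sub]
    exact Submodule.smul_mem_smul ha (hN τ hτ v)
  · intro x y hx hy
    have e : ρ τ (x + y) - (x + y) = (ρ τ x - x) + (ρ τ y - y) := by
      rw [map_add]; abel
    rw [e]
    exact Submodule.add_mem _ hx hy

/-- `aug I ρ ⊤` is stable under `G` when `I` is stable under conjugation. -/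
theorem map_mem_aug_top {I : Set G} (hI : ∀ g : G, ∀ τ ∈ I, g * τ * g⁻¹ ∈ I)
    {ρ : G →* Module.End A V} (g : G) {x : V} (hx : x ∈ aug I ρ ⊤) : ρ g x ∈ aug I ρ ⊤ := by
  rw [aug] at hx
  induction hx using Submodule.span_induction with
  | mem x hx =>
    obtain ⟨τ, hτ, w, -, rfl⟩ := hx
    have e : ρ g (ρ τ w - w) = ρ (g * τ * g⁻¹) (ρ g w) - ρ g w := by
      rw [map_sub, ← Module.End.mul_apply, ← Module.End.mul_apply, ← map_mul, ← map_mul,
        inv_mul_cancel_right]
    rw [e]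
    exact sub_mem_aug (hI g τ hτ) Submodule.mem_top
  | zero => rw [map_zero]; exact Submodule.zero_mem _
  | add x y _ _ hx hy => rw [map_add]; exact Submodule.add_mem _ hx hy
  | smul a x _ hx => rw [map_smul]; exact Submodule.smul_mem _ a hx

/-- Coordinate `1` of an element of `A ∙ b 0 + J V` lies in `J`. -/
theorem repr_one_mem_of_mem_sup (b : Module.Basis (Fin 2) A V) (J : Ideal A) {x : V}
    (hx : x ∈ (A ∙ b 0) ⊔ J • (⊤ : Submodule A V)) : b.repr x 1 ∈ J := by
  obtain ⟨l, hl, m, hm, rfl⟩ := Submodule.mem_sup.mp hx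
  obtain ⟨a, rfl⟩ := Submodule.mem_span_singleton.mp hl
  rw [map_add, Finsupp.add_apply, map_smul, Finsupp.smul_apply, Module.Basis.repr_self,
    Finsupp.single_apply, if_neg (by decide), smul_zero, zero_add]
  exact repr_mem_of_mem_smul_top b J hm 1

theorem eq_repr_sum (b : Module.Basis (Fin 2) A V) (x : V) :
    x = b.repr x 0 • b 0 + b.repr x 1 • b 1 := by
  conv_lhs => rw [← b.sum_repr x]
  rw [Fin.sum_univ_two]

variable [IsLocalRing A]

local notation "𝔪" => IsLocalRing.maximalIdeal A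

theorem isUnit_of_sub_mem {u x : A} (hu : IsUnit u) (hx : x - u ∈ 𝔪) : IsUnit x := by
  by_contra hcon
  have h1 : x ∈ 𝔪 := (IsLocalRing.mem_maximalIdeal x).mpr hcon
  have h2 : u ∈ 𝔪 := by
    have := (𝔪).sub_mem h1 hx
    rwa [sub_sub_cancel] at this
  exact (IsLocalRing.mem_maximalIdeal u).mp h2 hu

/-- **F3-alg.** -/
theorem exists_line [IsHausdorff 𝔪 A] (I : Set G) (hI : ∀ g : G, ∀ τ ∈ I, g * τ * g⁻¹ ∈ I)
    (ρ : G →* Module.End A V) (b' : Module.Basis (Fin 2) A V) (σ0 : G) (hσ0 : σ0 ∈ I) (w : A)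
    (hw : IsUnit (w - 1)) (hdet : LinearMap.det (ρ σ0) - w ∈ 𝔪)
    (hres : ∀ τ ∈ I, ∀ v : V, ρ τ v - v ∈ (A ∙ b' 0) ⊔ 𝔪 • (⊤ : Submodule A V))
    (hexact : ∀ n : ℕ, ∀ x ∈ 𝔪 ^ n • (⊤ : Submodule A V),
      x ∈ aug I ρ ⊤ ⊔ 𝔪 ^ (n + 1) • (⊤ : Submodule A V) →
      x ∈ aug I ρ (𝔪 ^ n • (⊤ : Submodule A V)) ⊔ 𝔪 ^ (n + 1) • (⊤ : Submodule A V)) :
    ∃ L : Submodule A V, (∃ b : Module.Basis (Fin 2) A V, L = A ∙ b 0) ∧
      (∀ g : G, ∀ v ∈ L, ρ g v ∈ L) ∧ (∀ τ ∈ I, ∀ v : V, ρ τ v - v ∈ L) := by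
  classical
  have : Module.Finite A V := Module.Finite.of_basis b'
  have : Module.Free A V := Module.Free.of_basis b'
  have hrank : Module.finrank A V = 2 := by
    rw [Module.finrank_eq_card_basis b', Fintype.card_fin]
  set f : Module.End A V := ρ σ0 with hf
  set M : Matrix (Fin 2) (Fin 2) A := LinearMap.toMatrix b' b' f with hM
  have hMij : ∀ i j, M i j = b'.repr (f (b' j)) i := fun i j => LinearMap.toMatrix_apply b' b' f i j
  -- the entries of the matrix
  have h10 : M 1 0 ∈ 𝔪 := by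
    have := repr_one_mem_of_mem_sup b' 𝔪 (hres σ0 hσ0 (b' 0))
    rw [map_sub, Finsupp.sub_apply, Module.Basis.repr_self, Finsupp.single_apply,
      if_neg (by decide), sub_zero] at this
    rw [hMij]; exact this
  have h11 : M 1 1 - 1 ∈ 𝔪 := by
    have := repr_one_mem_of_mem_sup b' 𝔪 (hres σ0 hσ0 (b' 1))
    rw [map_sub, Finsupp.sub_apply, Module.Basis.repr_self, Finsupp.single_apply,
      if_pos rfl] at this
    rw [hMij]; exact this
  have h00 : M 0 0 - w ∈ 𝔪 := by
    have hd : LinearMap.det f = M 0 0 * M 1 1 - M 0 1 * M 1 0 := by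
      rw [← LinearMap.det_toMatrix b' f, Matrix.det_fin_two]
    have e : M 0 0 - w = (LinearMap.det f - w) - M 0 0 * (M 1 1 - 1) + M 0 1 * M 1 0 := by
      rw [hd]; ring
    rw [e]
    exact (𝔪).add_mem ((𝔪).sub_mem hdet ((𝔪).mul_mem_left _ h11)) ((𝔪).mul_mem_left _ h10)
  set c : A := M 0 0 - 1 with hc
  have hcu : IsUnit c := by
    apply isUnit_of_sub_mem hw
    have e : c - (w - 1) = M 0 0 - w := by rw [hc]; ring
    rw [e]; exact h00
  -- the new first basis vector
  set b0 : V := f (b' 0) - b' 0 with hb0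
  have hb0e : b0 = c • b' 0 + M 1 0 • b' 1 := by
    have := eq_repr_sum b' b0
    rw [hb0, map_sub, Finsupp.sub_apply, Finsupp.sub_apply, Module.Basis.repr_self,
      Finsupp.single_apply, Finsupp.single_apply, if_pos rfl, if_neg (by decide), sub_zero,
      ← hMij, ← hMij, ← hb0] at this
    exact this
  obtain ⟨ci, hci⟩ := hcu.exists_left_inv
  have hb'0 : b' 0 = ci • b0 - (ci * M 1 0) • b' 1 := by
    rw [hb0e, smul_add, smul_smul, smul_smul, hci, one_smul, add_sub_cancel_right]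
  let bf : Fin 2 → V := ![b0, b' 1]
  have hspan : ⊤ ≤ Submodule.span A (Set.range bf) := by
    rw [← b'.span_eq, Submodule.span_le]
    rintro _ ⟨i, rfl⟩
    have m0 : b0 ∈ Submodule.span A (Set.range bf) := Submodule.subset_span ⟨0, rfl⟩
    have m1 : b' 1 ∈ Submodule.span A (Set.range bf) := Submodule.subset_span ⟨1, rfl⟩
    fin_cases i
    · show b' 0 ∈ _
      rw [hb'0]
      exact Submodule.sub_mem _ (Submodule.smul_mem _ _ m0) (Submodule.smul_mem _ _ m1)
    · exact m1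
  let b : Module.Basis (Fin 2) A V :=
    basisOfTopLeSpanOfCardEqFinrank bf hspan (by rw [hrank]; rfl)
  have hbcoe : ∀ i, b i = bf i := fun i => by rw [coe_basisOfTopLeSpanOfCardEqFinrank]
  have hb_0 : b 0 = b0 := hbcoe 0
  set L : Submodule A V := A ∙ b 0 with hL
  -- residual condition for `L`
  have hle : (A ∙ b' 0) ⊔ 𝔪 • (⊤ : Submodule A V) ≤ L ⊔ 𝔪 • (⊤ : Submodule A V) := by
    refine sup_le ?_ le_sup_right
    rw [Submodule.span_le, Set.singleton_subset_iff, SetLike.mem_coe, hb'0]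
    refine Submodule.sub_mem _ (Submodule.mem_sup_left ?_) (Submodule.mem_sup_right ?_)
    · rw [hL, hb_0]
      exact Submodule.smul_mem _ _ (Submodule.mem_span_singleton_self _)
    · exact Submodule.smul_mem_smul ((𝔪).mul_mem_left _ h10) Submodule.mem_top
  have hresL : ∀ τ ∈ I, ∀ v : V, ρ τ v - v ∈ L ⊔ 𝔪 • (⊤ : Submodule A V) :=
    fun τ hτ v => hle (hres τ hτ v)
  have hLaug : L ≤ aug I ρ ⊤ := by
    rw [hL, hb_0, Submodule.span_le, Set.singleton_subset_iff]
    exact sub_mem_aug hσ0 Submodule.mem_top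
  -- the induction
  have hind : ∀ n : ℕ, aug I ρ ⊤ ≤ L ⊔ 𝔪 ^ (n + 1) • (⊤ : Submodule A V) := by
    intro n
    induction n with
    | zero =>
      rw [aug, Submodule.span_le, zero_add, pow_one]
      rintro x ⟨τ, hτ, v, -, rfl⟩
      exact hresL τ hτ v
    | succ n ih =>
      intro y hy
      obtain ⟨l, hl, x, hx, rfl⟩ := Submodule.mem_sup.mp (ih hy)
      have hxaug : x ∈ aug I ρ ⊤ := by
        have := Submodule.sub_mem _ hy (hLaug hl)
        rwa [add_sub_cancel_left] at this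
      have h1 := hexact (n + 1) x hx (Submodule.mem_sup_left hxaug)
      have h2 : aug I ρ (𝔪 ^ (n + 1) • (⊤ : Submodule A V)) ≤
          L ⊔ 𝔪 ^ (n + 1 + 1) • (⊤ : Submodule A V) := by
        refine (aug_smul_top_le (𝔪 ^ (n + 1)) _ hresL).trans ?_
        rw [Submodule.smul_sup]
        refine sup_le (Submodule.smul_le_right.trans le_sup_left) ?_
        rw [← Submodule.mul_smul, ← pow_succ]
        exact le_sup_right
      have h3 : x ∈ L ⊔ 𝔪 ^ (n + 1 + 1) • (⊤ : Submodule A V) :=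
        (sup_le h2 le_sup_right) h1
      exact Submodule.add_mem _ (Submodule.mem_sup_left hl) h3
  -- Krull
  have haugL : aug I ρ ⊤ ≤ L := by
    intro y hy
    have h1 : ∀ n : ℕ, b.repr y 1 ∈ 𝔪 ^ (n + 1) := fun n =>
      repr_one_mem_of_mem_sup b _ (hind n hy)
    have h2 : b.repr y 1 = 0 := by
      apply IsHausdorff.haus (I := 𝔪) (M := A) inferInstance
      intro n
      rw [SModEq.zero, smul_eq_mul, Ideal.mul_top]
      exact Ideal.pow_le_pow_right (Nat.le_succ n) (h1 n)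
    have h3 := eq_repr_sum b y
    rw [h2, zero_smul, add_zero] at h3
    rw [h3]
    exact Submodule.smul_mem _ _ (Submodule.mem_span_singleton_self _)
  refine ⟨L, ⟨b, rfl⟩, fun g v hv => haugL (map_mem_aug_top hI g (hLaug hv)),
    fun τ hτ v => haugL (sub_mem_aug hτ Submodule.mem_top)⟩

end Fermat.Agent.ORD.FlatOrd.AugLimit92
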