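/-
ORD / FLATORD (helper92): **flat + residually ordinary ⇒ ordinary**, reduced to the exactness of
inertia coinvariants on finite flat `G_p`-modules (`CoinvExactGen p`, helper68's brick F1; the
`p`-torsion case is `OrdShape54.coinvExact_of_star` + `Unr68.star`).

`isOrdinaryAt_of_coinvExactGen` : the literal Prelude statement
`ρ.DetIsCyclotomic p → ρ.IsFlatAt p → residual ordinary → ρ.IsOrdinaryAt p` (`p` odd, `A` complete
noetherian local), under `CoinvExactGen p`.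
-/
import Mathlib
import Fermat.Agent.ORD.FlatOrd.AugLimit92
import Fermat.Agent.TW.Cnt.OrdShape54
import Fermat.Agent.TW.FF.LocalOfGlobal68

set_option autoImplicit false

noncomputable section

namespace Fermat.Agent.ORD.FlatOrd.FO92

open Fermat.Agent.TW.FF.FlatModel68 Fermat.Agent.TW.FF.Spec72
open Fermat.Agent.TW.Cnt.OrdShape54 Fermat.Agent.TW.Cnt.LocalStruct97
open Fermat.Agent.ORD.FlatOrd.LocOrd92 Fermat.Agent.ORD.FlatOrd.ResLift92
open Fermat.Agent.ORD.FlatOrd.AugLimit92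

/-- Exactness of inertia coinvariants on finite flat `G_p`-modules of `p`-power order:
`W ∩ I_aug V ⊆ I_aug W` (brick F1). -/
def CoinvExactGen (p : ℕ) [Fact p.Prime] : Prop :=
  ∀ (V : Type) [AddCommGroup V] [Finite V] (act : GQp p → V → V),
    LocalFlatModel p V act → (∃ n : ℕ, ∀ v : V, p ^ n • v = 0) →
    ∀ W : AddSubgroup V, (∀ τ, ∀ v ∈ W, act τ v ∈ W) →
      ∀ x ∈ W, x ∈ Iaug p act ⊤ → x ∈ Iaug p act W

variable {A : Type} [CommRing A] [IsLocalRing A]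

local notation "𝔪" => IsLocalRing.maximalIdeal A

variable {p : ℕ} [Fact p.Prime]

/-- The local action on `ρ.V`. -/
def locRep (p : ℕ) [Fact p.Prime] (ρ : GaloisRepAdic A) : GQp p →* Module.End A ρ.V :=
  ρ.ρ.comp (localGaloisToGlobal p)

theorem locRep_apply (ρ : GaloisRepAdic A) (τ : GQp p) (v : ρ.V) :
    locRep p ρ τ v = ρ.ρ (localGaloisToGlobal p τ) v := rfl

theorem finite_quotient_smul_top (ρ : GaloisRepAdic A) (J : Ideal A) (hJ : Finite (A ⧸ J)) :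
    Finite (ρ.V ⧸ (J • (⊤ : Submodule A ρ.V))) := by
  have : Module.Finite (A ⧸ J) (ρ.V ⧸ (J • (⊤ : Submodule A ρ.V))) :=
    Module.Finite.of_restrictScalars_finite A _ _
  exact Module.finite_of_finite (A ⧸ J)

omit [IsLocalRing A] in
theorem map_mem_smul_top {V : Type} [AddCommGroup V] [Module A V] (f : Module.End A V)
    (J : Ideal A) {w : V} (hw : w ∈ J • (⊤ : Submodule A V)) : f w ∈ J • (⊤ : Submodule A V) := by
  refine Submodule.smul_induction_on hw ?_ ?_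
  · intro a ha v _
    rw [map_smul]
    exact Submodule.smul_mem_smul ha Submodule.mem_top
  · intro x y hx hy
    rw [map_add]
    exact Submodule.add_mem _ hx hy

section Level

variable (ρ : GaloisRepAdic A) (J : Ideal A)

/-- The local action at level `J`, as a plain function (Spec72 vocabulary). -/
def lvlAct (p : ℕ) [Fact p.Prime] (τ : GQp p) :
    (ρ.V ⧸ (J • (⊤ : Submodule A ρ.V))) → (ρ.V ⧸ (J • (⊤ : Submodule A ρ.V))) :=
  fun v => ρ.levelAction J (localGaloisToGlobal p τ) v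

theorem lvlAct_mk (τ : GQp p) (v : ρ.V) :
    lvlAct ρ J p τ (Submodule.Quotient.mk v) =
      Submodule.Quotient.mk (ρ.ρ (localGaloisToGlobal p τ) v) := rfl

/-- The image of a submodule of `ρ.V` at level `J`, as an additive subgroup. -/
def lvlSub (W : Submodule A ρ.V) : AddSubgroup (ρ.V ⧸ (J • (⊤ : Submodule A ρ.V))) :=
  (W.map (Submodule.mkQ (J • (⊤ : Submodule A ρ.V)))).toAddSubgroup

theorem mem_lvlSub {W : Submodule A ρ.V} {z : ρ.V ⧸ (J • (⊤ : Submodule A ρ.V))} :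
    z ∈ lvlSub ρ J W ↔ ∃ w ∈ W, Submodule.Quotient.mk w = z := by
  rw [lvlSub, Submodule.mem_toAddSubgroup, Submodule.mem_map]
  rfl

theorem mk_mem_lvlSub {W : Submodule A ρ.V} {w : ρ.V} (hw : w ∈ W) :
    (Submodule.Quotient.mk w : ρ.V ⧸ (J • (⊤ : Submodule A ρ.V))) ∈ lvlSub ρ J W :=
  (mem_lvlSub ρ J).mpr ⟨w, hw, rfl⟩

theorem lvlSub_top : lvlSub ρ J ⊤ = ⊤ := by
  ext z
  constructor
  · intro _; exact AddSubgroup.mem_top z
  · intro _
    obtain ⟨v, rfl⟩ := Submodule.Quotient.mk_surjective _ z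
    exact mk_mem_lvlSub ρ J Submodule.mem_top

/-- `Iaug` of the image of a submodule is stable under scalars. -/
theorem smul_mem_Iaug (W : Submodule A ρ.V) (a : A)
    {z : ρ.V ⧸ (J • (⊤ : Submodule A ρ.V))} (hz : z ∈ Iaug p (lvlAct ρ J p) (lvlSub ρ J W)) :
    a • z ∈ Iaug p (lvlAct ρ J p) (lvlSub ρ J W) := by
  unfold Iaug at hz
  induction hz using AddSubgroup.closure_induction with
  | mem z hz =>
    obtain ⟨τ, hτ, w, hw, rfl⟩ := hz
    obtain ⟨w', hw', rfl⟩ := (mem_lvlSub ρ J).mp hw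
    have e : a • (lvlAct ρ J p τ (Submodule.Quotient.mk w') - Submodule.Quotient.mk w') =
        lvlAct ρ J p τ (Submodule.Quotient.mk (a • w')) - Submodule.Quotient.mk (a • w') := by
      rw [lvlAct_mk, lvlAct_mk, map_smul, smul_sub]
      rfl
    rw [e]
    exact sub_mem_Iaug hτ (mk_mem_lvlSub ρ J (W.smul_mem a hw'))
  | zero => rw [smul_zero]; exact AddSubgroup.zero_mem _
  | add x y _ _ hx hy => rw [smul_add]; exact AddSubgroup.add_mem _ hx hy
  | neg x _ hx => rw [smul_neg]; exact AddSubgroup.neg_mem _ hx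

/-- The image of `aug … W` lies in `Iaug` of the image of `W`. -/
theorem mk_mem_Iaug (W : Submodule A ρ.V) {y : ρ.V}
    (hy : y ∈ aug (inertiaSet p) (locRep p ρ) W) :
    (Submodule.Quotient.mk y : ρ.V ⧸ (J • (⊤ : Submodule A ρ.V))) ∈
      Iaug p (lvlAct ρ J p) (lvlSub ρ J W) := by
  rw [aug] at hy
  induction hy using Submodule.span_induction with
  | mem y hy =>
    obtain ⟨τ, hτ, w, hw, rfl⟩ := hy
    rw [Submodule.Quotient.mk_sub, locRep_apply, ← lvlAct_mk]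
    exact sub_mem_Iaug hτ (mk_mem_lvlSub ρ J hw)
  | zero => rw [Submodule.Quotient.mk_zero]; exact AddSubgroup.zero_mem _
  | add x y _ _ hx hy => rw [Submodule.Quotient.mk_add]; exact AddSubgroup.add_mem _ hx hy
  | smul a x _ hx => rw [Submodule.Quotient.mk_smul]; exact smul_mem_Iaug ρ J W a hx

/-- Every element of `Iaug` of the image of `W` lifts to `aug … W`. -/
theorem exists_mk_eq_of_mem_Iaug (W : Submodule A ρ.V)
    {z : ρ.V ⧸ (J • (⊤ : Submodule A ρ.V))} (hz : z ∈ Iaug p (lvlAct ρ J p) (lvlSub ρ J W)) :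
    ∃ y ∈ aug (inertiaSet p) (locRep p ρ) W, Submodule.Quotient.mk y = z := by
  unfold Iaug at hz
  induction hz using AddSubgroup.closure_induction with
  | mem z hz =>
    obtain ⟨τ, hτ, w, hw, rfl⟩ := hz
    obtain ⟨w', hw', rfl⟩ := (mem_lvlSub ρ J).mp hw
    exact ⟨locRep p ρ τ w' - w', sub_mem_aug hτ hw', rfl⟩
  | zero => exact ⟨0, Submodule.zero_mem _, rfl⟩
  | add x y _ _ hx hy =>
    obtain ⟨x', hx', rfl⟩ := hx
    obtain ⟨y', hy', rfl⟩ := hy
    exact ⟨x' + y', Submodule.add_mem _ hx' hy', rfl⟩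
  | neg x _ hx =>
    obtain ⟨x', hx', rfl⟩ := hx
    exact ⟨-x', Submodule.neg_mem _ hx', rfl⟩

end Level

theorem hexact_of_coinvExactGen [IsNoetherianRing A] (hF1 : CoinvExactGen p)
    (ρ : GaloisRepAdic A) (hpm : (p : A) ∈ 𝔪) (hflat : ρ.IsFlatAt p) (n : ℕ) (x : ρ.V)
    (hx : x ∈ 𝔪 ^ n • (⊤ : Submodule A ρ.V))
    (hx2 : x ∈ aug (inertiaSet p) (locRep p ρ) ⊤ ⊔ 𝔪 ^ (n + 1) • (⊤ : Submodule A ρ.V)) :
    x ∈ aug (inertiaSet p) (locRep p ρ) (𝔪 ^ n • (⊤ : Submodule A ρ.V)) ⊔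
      𝔪 ^ (n + 1) • (⊤ : Submodule A ρ.V) := by
  classical
  set J : Ideal A := 𝔪 ^ (n + 1) with hJ
  have hk : Finite (A ⧸ 𝔪) := hflat.1
  have hfin : Finite (A ⧸ J) := Ideal.finite_quotient_pow (IsNoetherian.noetherian 𝔪) (n + 1)
  have hFin : Finite (ρ.V ⧸ (J • (⊤ : Submodule A ρ.V))) := finite_quotient_smul_top ρ J hfin
  have hLFM : LocalFlatModel p (ρ.V ⧸ (J • (⊤ : Submodule A ρ.V))) (lvlAct ρ J p) :=
    Fermat.Agent.TW.FF.LocalOfGlobal68.localFlatModel_of_isFlatAt p ρ hflat J hfin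
  have hpn : ∃ m : ℕ, ∀ v : ρ.V ⧸ (J • (⊤ : Submodule A ρ.V)), p ^ m • v = 0 := by
    refine ⟨n + 1, fun v => ?_⟩
    obtain ⟨v', rfl⟩ := Submodule.Quotient.mk_surjective _ v
    rw [← Submodule.Quotient.mk_smul, Submodule.Quotient.mk_eq_zero]
    have e : p ^ (n + 1) • v' = ((p : A) ^ (n + 1)) • v' := by
      rw [← Nat.cast_pow, Nat.cast_smul_eq_nsmul]
    rw [e]
    exact Submodule.smul_mem_smul (Ideal.pow_mem_pow hpm (n + 1)) Submodule.mem_top
  set W : Submodule A ρ.V := 𝔪 ^ n • (⊤ : Submodule A ρ.V) with hW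
  have hWstab : ∀ τ, ∀ v ∈ lvlSub ρ J W, lvlAct ρ J p τ v ∈ lvlSub ρ J W := by
    intro τ v hv
    obtain ⟨w, hw, rfl⟩ := (mem_lvlSub ρ J).mp hv
    rw [lvlAct_mk]
    exact mk_mem_lvlSub ρ J (map_mem_smul_top _ _ hw)
  obtain ⟨y, hy, z, hz, rfl⟩ := Submodule.mem_sup.mp hx2
  have hmk : (Submodule.Quotient.mk (y + z) : ρ.V ⧸ (J • (⊤ : Submodule A ρ.V))) =
      Submodule.Quotient.mk y := by
    rw [Submodule.Quotient.mk_add, (Submodule.Quotient.mk_eq_zero _).mpr hz, add_zero]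
  have h1 : (Submodule.Quotient.mk (y + z) : ρ.V ⧸ (J • (⊤ : Submodule A ρ.V))) ∈
      Iaug p (lvlAct ρ J p) ⊤ := by
    rw [hmk, ← lvlSub_top ρ J]
    exact mk_mem_Iaug ρ J ⊤ hy
  have h2 := hF1 _ (lvlAct ρ J p) hLFM hpn (lvlSub ρ J W) hWstab _ (mk_mem_lvlSub ρ J hx) h1
  obtain ⟨y', hy', hy'e⟩ := exists_mk_eq_of_mem_Iaug ρ J W h2
  have h3 : (y + z) - y' ∈ J • (⊤ : Submodule A ρ.V) := by
    rw [← Submodule.Quotient.mk_eq_zero, Submodule.Quotient.mk_sub, hy'e, sub_self]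
  have e : y + z = y' + ((y + z) - y') := by abel
  rw [e]
  exact Submodule.add_mem_sup hy' h3

/-- **FLAT + RESIDUALLY ORDINARY ⇒ ORDINARY**, given exactness of inertia coinvariants (F1). -/
theorem isOrdinaryAt_of_coinvExactGen [IsNoetherianRing A] [IsAdicComplete 𝔪 A]
    (hF1 : CoinvExactGen p) (hp2 : p ≠ 2) (ρ : GaloisRepAdic A) (hdet : ρ.DetIsCyclotomic p)
    (hflat : ρ.IsFlatAt p)
    (hres : (GaloisRepAdic.ofResidualGaloisRep ρ.residual).IsOrdinaryAt p) :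
    ρ.IsOrdinaryAt p := by
  rw [isOrdinaryAt_iff_isLocOrd]
  obtain ⟨b', hb'⟩ := exists_basis_of_residual ρ (isLocOrd_of_isOrdinaryAt _ hres)
  obtain ⟨τ0, hτ0, hd⟩ := exists_inertia_det hp2 ρ hdet
  have hw : IsUnit ((2 : A) - 1) := by norm_num
  exact exists_line (inertiaSet p) (fun g τ hτ => conj_mem_inertiaSet hτ g) (locRep p ρ) b' τ0 hτ0
    2 hw hd hb' (hexact_of_coinvExactGen hF1 ρ hdet.1 hflat)

end Fermat.Agent.ORD.FlatOrd.FO92
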