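/-
ORD / FLATORD (helper68), file 3.  **Exactness of inertia coinvariants at the finite levels of a flat
`GaloisRepAdic`**: the literal `hexact` input of the abstract limit argument.

For `ρ : GaloisRepAdic A` flat at `p` (`p` odd, `p ∈ 𝔪_A`, `A` noetherian local), `𝔪 = 𝔪_A`:
`x ∈ 𝔪^n V`, `x ∈ aug V + 𝔪^(n+1) V`  ⟹  `x ∈ aug (𝔪^n V) + 𝔪^(n+1) V`,
where `aug W` is the `A`-span of the `ρ(τ) w - w`, `τ` in the inertia set of `G_p`, `w ∈ W`.
-/
import Mathlib
import Fermat.Agent.ORD.FlatOrd.CoinvGen68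
import Fermat.Agent.TW.FF.LocalOfGlobal68

set_option autoImplicit false

noncomputable section

namespace Fermat.Agent.ORD.FlatOrd.Levels68

open Fermat.Agent.TW.FF.FlatModel68 Fermat.Agent.TW.FF.Spec72 Fermat.Agent.TW.FF
open Fermat.Agent.ORD.FlatOrd.CoinvGen68 IsLocalRing

variable {p : ℕ} [Fact p.Prime] {A : Type} [CommRing A] [IsLocalRing A]

/-- the local action of `G_p` on `ρ.V`. -/
def locAct (p : ℕ) [Fact p.Prime] (ρ : GaloisRepAdic A) (τ : GQp p) : Module.End A ρ.V :=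
  ρ.ρ (localGaloisToGlobal p τ)

/-- the `A`-span of the `ρ(τ) w - w`, `τ` in inertia, `w ∈ W`. -/
def augSub (p : ℕ) [Fact p.Prime] (ρ : GaloisRepAdic A) (W : Submodule A ρ.V) : Submodule A ρ.V :=
  Submodule.span A {x | ∃ τ ∈ inertiaSet p, ∃ w ∈ W, x = locAct p ρ τ w - w}

variable (ρ : GaloisRepAdic A)

theorem sub_mem_augSub {W : Submodule A ρ.V} {τ : GQp p} (hτ : τ ∈ inertiaSet p) {w : ρ.V}
    (hw : w ∈ W) : locAct p ρ τ w - w ∈ augSub p ρ W :=
  Submodule.subset_span ⟨τ, hτ, w, hw, rfl⟩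

/-- linear maps preserve `J • ⊤`. -/
theorem apply_mem_smul_top (J : Ideal A) (f : Module.End A ρ.V) {v : ρ.V}
    (hv : v ∈ J • (⊤ : Submodule A ρ.V)) : f v ∈ J • (⊤ : Submodule A ρ.V) := by
  have h1 : (J • (⊤ : Submodule A ρ.V)).map f ≤ J • (⊤ : Submodule A ρ.V) := by
    rw [Submodule.map_smul'']
    exact Submodule.smul_mono le_rfl le_top
  exact h1 (Submodule.mem_map_of_mem hv)

section Level

variable (I : Ideal A)

/-- the action on the level `V ⧸ I V`. -/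
def levAct (τ : GQp p) : (ρ.V ⧸ (I • (⊤ : Submodule A ρ.V))) → (ρ.V ⧸ (I • (⊤ : Submodule A ρ.V))) :=
  fun x => ρ.levelAction I (localGaloisToGlobal p τ) x

theorem levAct_mk (τ : GQp p) (v : ρ.V) :
    levAct ρ I τ (Submodule.Quotient.mk v) = Submodule.Quotient.mk (locAct p ρ τ v) := rfl

theorem levAct_smul (τ : GQp p) (c : A) (x : ρ.V ⧸ (I • (⊤ : Submodule A ρ.V))) :
    levAct ρ I τ (c • x) = c • levAct ρ I τ x :=
  map_smul (ρ.levelAction I (localGaloisToGlobal p τ)) c x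

/-- `Iaug` of (the additive group of) a submodule is stable under scalars. -/
theorem smul_mem_Iaug (W : Submodule A (ρ.V ⧸ (I • (⊤ : Submodule A ρ.V)))) (c : A)
    {x : ρ.V ⧸ (I • (⊤ : Submodule A ρ.V))}
    (hx : x ∈ Iaug p (levAct ρ I) W.toAddSubgroup) :
    c • x ∈ Iaug p (levAct ρ I) W.toAddSubgroup := by
  unfold Iaug at hx
  induction hx using AddSubgroup.closure_induction with
  | mem x hx =>
    obtain ⟨τ, hτ, w, hw, rfl⟩ := hx
    rw [smul_sub, ← levAct_smul]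
    exact sub_mem_Iaug hτ (W.smul_mem c hw)
  | zero => rw [smul_zero]; exact zero_mem _
  | add a b _ _ ha hb => rw [smul_add]; exact add_mem ha hb
  | neg a _ ha => rw [smul_neg]; exact neg_mem ha

/-- the image of `augSub W` in the level lies in `Iaug` of the image of `W`. -/
theorem mk_mem_Iaug_of_mem_augSub (W : Submodule A ρ.V) {a : ρ.V} (ha : a ∈ augSub p ρ W) :
    (Submodule.Quotient.mk a : ρ.V ⧸ (I • (⊤ : Submodule A ρ.V))) ∈
      Iaug p (levAct ρ I) (W.map (I • (⊤ : Submodule A ρ.V)).mkQ).toAddSubgroup := by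
  unfold augSub at ha
  induction ha using Submodule.span_induction with
  | mem x hx =>
    obtain ⟨τ, hτ, w, hw, rfl⟩ := hx
    rw [Submodule.Quotient.mk_sub, ← levAct_mk]
    exact sub_mem_Iaug hτ (Submodule.mem_map_of_mem (f := (I • (⊤ : Submodule A ρ.V)).mkQ) hw)
  | zero => rw [Submodule.Quotient.mk_zero]; exact zero_mem _
  | add a b _ _ ha hb => rw [Submodule.Quotient.mk_add]; exact add_mem ha hb
  | smul c a _ ha =>
    rw [Submodule.Quotient.mk_smul]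
    exact smul_mem_Iaug ρ I _ c ha

/-- conversely every element of `Iaug` of the image of `W` lifts to `augSub W`. -/
theorem exists_mem_augSub_of_mem_Iaug (W : Submodule A ρ.V)
    {y : ρ.V ⧸ (I • (⊤ : Submodule A ρ.V))}
    (hy : y ∈ Iaug p (levAct ρ I) (W.map (I • (⊤ : Submodule A ρ.V)).mkQ).toAddSubgroup) :
    ∃ a ∈ augSub p ρ W, (Submodule.Quotient.mk a : ρ.V ⧸ (I • (⊤ : Submodule A ρ.V))) = y := by
  unfold Iaug at hy
  induction hy using AddSubgroup.closure_induction with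
  | mem x hx =>
    obtain ⟨τ, hτ, w', hw', rfl⟩ := hx
    obtain ⟨w, hw, rfl⟩ := hw'
    exact ⟨locAct p ρ τ w - w, sub_mem_augSub ρ hτ hw, rfl⟩
  | zero => exact ⟨0, zero_mem _, rfl⟩
  | add a b _ _ ha hb =>
    obtain ⟨a', ha', rfl⟩ := ha
    obtain ⟨b', hb', rfl⟩ := hb
    exact ⟨a' + b', add_mem ha' hb', rfl⟩
  | neg a _ ha =>
    obtain ⟨a', ha', rfl⟩ := ha
    exact ⟨-a', neg_mem ha', rfl⟩

end Level

/-- **Exactness at the finite levels** (`hexact`). -/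
theorem exact_levels [IsNoetherianRing A] (hp2 : p ≠ 2) (hpA : (p : A) ∈ maximalIdeal A)
    (hflat : ρ.IsFlatAt p) (n : ℕ) {x : ρ.V}
    (hx : x ∈ (maximalIdeal A ^ n) • (⊤ : Submodule A ρ.V))
    (hx' : x ∈ augSub p ρ ⊤ ⊔ (maximalIdeal A ^ (n + 1)) • (⊤ : Submodule A ρ.V)) :
    x ∈ augSub p ρ ((maximalIdeal A ^ n) • (⊤ : Submodule A ρ.V)) ⊔
      (maximalIdeal A ^ (n + 1)) • (⊤ : Submodule A ρ.V) := by
  set I : Ideal A := maximalIdeal A ^ (n + 1) with hI
  have : Finite (A ⧸ maximalIdeal A) := hflat.1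
  have hfin : Finite (A ⧸ I) :=
    Ideal.finite_quotient_pow (IsNoetherian.noetherian (maximalIdeal A)) (n + 1)
  have hV : LocalFlatModel p (ρ.V ⧸ (I • (⊤ : Submodule A ρ.V))) (levAct ρ I) :=
    LocalOfGlobal68.localFlatModel_of_isFlatAt p ρ hflat I hfin
  have hpn : ∃ N : ℕ, ∀ v : ρ.V ⧸ (I • (⊤ : Submodule A ρ.V)), p ^ N • v = 0 := by
    refine ⟨n + 1, fun v => ?_⟩
    induction v using Submodule.Quotient.induction_on with
    | H v =>
      rw [← Submodule.Quotient.mk_smul, Submodule.Quotient.mk_eq_zero]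
      have h1 : (p ^ (n + 1) : ℕ) • v = ((p : A) ^ (n + 1)) • v := by
        rw [← Nat.cast_smul_eq_nsmul A]
        push_cast
        rfl
      rw [h1]
      exact Submodule.smul_mem_smul (Ideal.pow_mem_pow hpA _) Submodule.mem_top
  set Wn : Submodule A ρ.V := (maximalIdeal A ^ n) • (⊤ : Submodule A ρ.V) with hWn
  let W : AddSubgroup (ρ.V ⧸ (I • (⊤ : Submodule A ρ.V))) :=
    (Wn.map (I • (⊤ : Submodule A ρ.V)).mkQ).toAddSubgroup
  have hW : ∀ τ : GQp p, ∀ v ∈ W, levAct ρ I τ v ∈ W := by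
    rintro τ _ ⟨w, hw, rfl⟩
    exact ⟨locAct p ρ τ w, apply_mem_smul_top ρ _ _ hw, rfl⟩
  obtain ⟨a, ha, b, hb, rfl⟩ := Submodule.mem_sup.1 hx'
  have hmk : (Submodule.Quotient.mk (a + b) : ρ.V ⧸ (I • (⊤ : Submodule A ρ.V))) =
      Submodule.Quotient.mk a := by
    rw [Submodule.Quotient.mk_add, (Submodule.Quotient.mk_eq_zero _).2 hb, add_zero]
  have h1 : (Submodule.Quotient.mk (a + b) : ρ.V ⧸ (I • (⊤ : Submodule A ρ.V))) ∈ W :=
    ⟨a + b, hx, rfl⟩
  have h2 : (Submodule.Quotient.mk (a + b) : ρ.V ⧸ (I • (⊤ : Submodule A ρ.V))) ∈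
      Iaug p (levAct ρ I) ⊤ := by
    rw [hmk]
    have := mk_mem_Iaug_of_mem_augSub ρ I ⊤ ha
    refine Iaug_mono ?_ this
    exact le_top
  have h3 := coinvExact_gen hp2 hV hpn W hW h1 h2
  obtain ⟨a', ha', h4⟩ := exists_mem_augSub_of_mem_Iaug ρ I Wn h3
  have h5 : a + b - a' ∈ I • (⊤ : Submodule A ρ.V) := by
    rw [← Submodule.Quotient.mk_eq_zero, Submodule.Quotient.mk_sub, h4, sub_self]
  have h6 : a + b = a' + (a + b - a') := by abel
  rw [h6]
  exact Submodule.add_mem_sup ha' h5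

end Fermat.Agent.ORD.FlatOrd.Levels68
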