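/-
ORD / FLATORD (helper68), file 4.  **FLAT + RESIDUALLY ORDINARY ⇒ ORDINARY** (`p` odd).

`isOrdinaryAt_of_isFlatAt` : for a complete noetherian local ring `A` and `ρ : GaloisRepAdic A` with
cyclotomic determinant, flat at `p`, whose residual representation is ordinary at `p`, `ρ` is ordinary
at `p` (all in the Prelude's vocabulary).

Proof.  Local at `p` (`Transport83`).  Take `τ₀` in inertia with `χ_p(τ₀) ≡ 2`; `f = ρ(τ₀)` has residual
eigenvalues `2, 1`, so by Hensel (`HenselSplit68`) `V = A b₀ ⊕ A b₁` with `f b₀ = α b₀`, `α - 1` a unit,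
and `A b₀ + 𝔪 V` is the preimage of the residual line.  Then `b₀ ∈ aug V` and, by induction on `n` with
the exactness of inertia coinvariants at the finite flat levels (`Levels68.exact_levels`), the
`b₁`-coordinate of `aug V` lies in `𝔪^n` for all `n`, hence vanishes (Krull): `aug V = A b₀`.
-/
import Mathlib
import Fermat.Agent.ORD.FlatOrd.Levels68
import Fermat.Agent.ORD.FlatOrd.HenselSplit68
import Fermat.Agent.ORD.Local.Transport83
import Fermat.Agent.Lib.InertiaCyclo69

set_option autoImplicit false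
set_option linter.unusedSectionVars false

noncomputable section

namespace Fermat.Agent.ORD.FlatOrd.FlatOrd68

open Fermat.Agent.TW.FF.FlatModel68 Fermat.Agent.TW.FF.Spec72 Fermat.Agent.TW.FF
open Fermat.Agent.ORD.FlatOrd.Levels68 Fermat.Agent.ORD.FlatOrd.HenselSplit68
open Fermat.Agent.ORD.Local.Transport83 IsLocalRing

variable {p : ℕ} [Fact p.Prime] {A : Type} [CommRing A] [IsLocalRing A] (ρ : GaloisRepAdic A)

/-! ### Generalities -/

theorem locAct_mul (g h : GQp p) : locAct p ρ (g * h) = locAct p ρ g * locAct p ρ h := by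
  unfold locAct
  rw [map_mul, map_mul]

theorem locAct_one : locAct p ρ (1 : GQp p) = 1 := by
  unfold locAct
  rw [map_one, map_one]

theorem locAct_inv_apply (g : GQp p) (v : ρ.V) : locAct p ρ g⁻¹ (locAct p ρ g v) = v := by
  rw [← Module.End.mul_apply, ← locAct_mul, inv_mul_cancel, locAct_one, Module.End.one_apply]

/-- a linear functional maps `J • ⊤` into `J`. -/
theorem apply_mem_of_mem_smul_top {V : Type} [AddCommGroup V] [Module A V] (J : Ideal A)
    (φ : V →ₗ[A] A) {y : V} (hy : y ∈ J • (⊤ : Submodule A V)) : φ y ∈ J := by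
  refine Submodule.smul_induction_on hy ?_ ?_
  · intro c hc v _
    rw [map_smul, smul_eq_mul]
    exact Ideal.mul_mem_right _ _ hc
  · intro x y hx hy
    rw [map_add]
    exact add_mem hx hy

/-- membership in the line spanned by the first vector of a basis. -/
theorem mem_span_zero_iff {V : Type} [AddCommGroup V] [Module A V] (b : Module.Basis (Fin 2) A V)
    (v : V) : v ∈ Submodule.span A {b 0} ↔ b.coord 1 v = 0 := by
  constructor
  · intro hv
    obtain ⟨c, rfl⟩ := Submodule.mem_span_singleton.1 hv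
    rw [map_smul, Module.Basis.coord_apply, Module.Basis.repr_self]
    simp
  · intro hv
    have h1 := b.sum_repr v
    rw [Fin.sum_univ_two] at h1
    rw [Module.Basis.coord_apply] at hv
    rw [hv, zero_smul, add_zero] at h1
    rw [← h1]
    exact Submodule.smul_mem _ _ (Submodule.mem_span_singleton_self _)

/-- `aug V` is stable under `G_p`. -/
theorem locAct_mem_augSub (g : GQp p) {x : ρ.V} (hx : x ∈ augSub p ρ ⊤) :
    locAct p ρ g x ∈ augSub p ρ ⊤ := by
  unfold augSub at hx ⊢
  induction hx using Submodule.span_induction with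
  | mem x hx =>
    obtain ⟨τ, hτ, w, -, rfl⟩ := hx
    have h1 : locAct p ρ g (locAct p ρ τ w - w) =
        locAct p ρ (g * τ * g⁻¹) (locAct p ρ g w) - locAct p ρ g w := by
      rw [map_sub, locAct_mul, locAct_mul, Module.End.mul_apply, Module.End.mul_apply,
        locAct_inv_apply]
    rw [h1]
    exact Submodule.subset_span ⟨g * τ * g⁻¹, Red68.conj_mem_inertiaSet hτ g, _,
      Submodule.mem_top, rfl⟩
  | zero => rw [map_zero]; exact zero_mem _
  | add x y _ _ hx hy => rw [map_add]; exact add_mem hx hy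
  | smul c x _ hx => rw [map_smul]; exact Submodule.smul_mem _ _ hx

/-! ### The limit argument -/

section Limit

variable [IsNoetherianRing A] {τ₀ : GQp p} (hτ₀ : τ₀ ∈ inertiaSet p) {α : A}
  (b : Module.Basis (Fin 2) A ρ.V) (h0 : locAct p ρ τ₀ (b 0) = α • b 0) (hα : IsUnit (α - 1))
  (hres : ∀ τ ∈ inertiaSet p, ∀ v : ρ.V,
    locAct p ρ τ v - v ∈ Submodule.span A {b 0} ⊔ maximalIdeal A • (⊤ : Submodule A ρ.V))
  (hexact : ∀ (n : ℕ) (x : ρ.V), x ∈ (maximalIdeal A ^ n) • (⊤ : Submodule A ρ.V) →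
    x ∈ augSub p ρ ⊤ ⊔ (maximalIdeal A ^ (n + 1)) • (⊤ : Submodule A ρ.V) →
    x ∈ augSub p ρ ((maximalIdeal A ^ n) • (⊤ : Submodule A ρ.V)) ⊔
      (maximalIdeal A ^ (n + 1)) • (⊤ : Submodule A ρ.V))

include hτ₀ h0 hα in
/-- the line `A b₀` lies in the augmentation submodule. -/
theorem span_le_augSub : Submodule.span A {b 0} ≤ augSub p ρ ⊤ := by
  rw [Submodule.span_le, Set.singleton_subset_iff]
  have hinv : (↑hα.unit⁻¹ : A) * (α - 1) = 1 := by
    have := hα.unit.inv_mul
    rwa [IsUnit.unit_spec] at this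
  have h1 : b 0 = locAct p ρ τ₀ ((↑hα.unit⁻¹ : A) • b 0) - (↑hα.unit⁻¹ : A) • b 0 := by
    rw [map_smul, h0, smul_smul, ← sub_smul, ← mul_sub_one, hinv, one_smul]
  rw [h1]
  exact sub_mem_augSub ρ hτ₀ Submodule.mem_top

include hres in
/-- the `b₁`-coordinate of `ρ(τ) v - v` lies in `𝔪`. -/
theorem coord_sub_mem {τ : GQp p} (hτ : τ ∈ inertiaSet p) (v : ρ.V) :
    b.coord 1 (locAct p ρ τ v - v) ∈ maximalIdeal A := by
  obtain ⟨l, hl, y, hy, hly⟩ := Submodule.mem_sup.1 (hres τ hτ v)
  rw [← hly, map_add, (mem_span_zero_iff b l).1 hl, zero_add]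
  exact apply_mem_of_mem_smul_top _ _ hy

include hres in
/-- the `b₁`-coordinate of `aug (𝔪^n V)` lies in `𝔪^(n+1)`. -/
theorem coord_augSub_mem (n : ℕ) {a : ρ.V}
    (ha : a ∈ augSub p ρ ((maximalIdeal A ^ n) • (⊤ : Submodule A ρ.V))) :
    b.coord 1 a ∈ maximalIdeal A ^ (n + 1) := by
  unfold augSub at ha
  induction ha using Submodule.span_induction with
  | mem x hx =>
    obtain ⟨τ, hτ, w, hw, rfl⟩ := hx
    refine Submodule.smul_induction_on hw ?_ ?_
    · intro c hc v _
      have h1 : locAct p ρ τ (c • v) - c • v = c • (locAct p ρ τ v - v) := by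
        rw [map_smul, smul_sub]
      rw [h1, map_smul, smul_eq_mul, pow_succ]
      exact Ideal.mul_mem_mul hc (coord_sub_mem ρ b hres hτ v)
    · intro x y hx hy
      have h1 : locAct p ρ τ (x + y) - (x + y) =
          (locAct p ρ τ x - x) + (locAct p ρ τ y - y) := by
        rw [map_add]; abel
      rw [h1, map_add]
      exact add_mem hx hy
  | zero => rw [map_zero]; exact zero_mem _
  | add x y _ _ hx hy => rw [map_add]; exact add_mem hx hy
  | smul c x _ hx =>
    rw [map_smul, smul_eq_mul]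
    exact Ideal.mul_mem_left _ _ hx

include hτ₀ h0 hα hres hexact in
/-- the `b₁`-coordinate of `aug V` lies in `𝔪^n` for every `n`. -/
theorem coord_augSub_top_mem (n : ℕ) : ∀ a ∈ augSub p ρ ⊤, b.coord 1 a ∈ maximalIdeal A ^ n := by
  induction n with
  | zero =>
    intro a _
    rw [pow_zero, Ideal.one_eq_top]
    exact Submodule.mem_top
  | succ n ih =>
    intro a ha
    -- `z` = the `b₁`-component of `a`
    set z : ρ.V := b.coord 1 a • b 1 with hz
    have hzn : z ∈ (maximalIdeal A ^ n) • (⊤ : Submodule A ρ.V) :=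
      Submodule.smul_mem_smul (ih a ha) Submodule.mem_top
    have haz : a - z ∈ Submodule.span A {b 0} := by
      have h1 := b.sum_repr a
      rw [Fin.sum_univ_two] at h1
      have h2 : a - z = b.repr a 0 • b 0 := by
        rw [hz, Module.Basis.coord_apply]
        nth_rewrite 1 [← h1]
        abel
      rw [h2]
      exact Submodule.smul_mem _ _ (Submodule.mem_span_singleton_self _)
    have hzaug : z ∈ augSub p ρ ⊤ := by
      have h1 : z = a - (a - z) := by abel
      rw [h1]
      exact sub_mem ha (span_le_augSub ρ hτ₀ b h0 hα haz)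
    have h3 := hexact n z hzn (Submodule.mem_sup_left hzaug)
    obtain ⟨a', ha', y, hy, hay⟩ := Submodule.mem_sup.1 h3
    have hcz : b.coord 1 z = b.coord 1 a := by
      have h11 : b.coord 1 (b 1) = 1 := by
        rw [Module.Basis.coord_apply, Module.Basis.repr_self]
        simp
      rw [hz, map_smul, h11, smul_eq_mul, mul_one]
    rw [← hcz, ← hay, map_add]
    exact add_mem (coord_augSub_mem ρ b hres n ha') (apply_mem_of_mem_smul_top _ _ hy)

include hτ₀ h0 hα hres hexact in
/-- **`aug V = A b₀`.** -/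
theorem augSub_top_le_span : augSub p ρ ⊤ ≤ Submodule.span A {b 0} := by
  intro a ha
  rw [mem_span_zero_iff]
  have h1 : b.coord 1 a ∈ (⨅ i : ℕ, maximalIdeal A ^ i : Ideal A) := by
    rw [Ideal.mem_iInf]
    intro n
    exact coord_augSub_top_mem ρ hτ₀ b h0 hα hres hexact n a ha
  rw [Ideal.iInf_pow_eq_bot_of_isLocalRing _ (Ideal.IsMaximal.ne_top inferInstance)] at h1
  exact h1

include hτ₀ h0 hα hres hexact in
/-- the local ordinarity. -/
theorem ordLoc_of_data : OrdLoc ρ.ρ p := by
  have hle := augSub_top_le_span ρ hτ₀ b h0 hα hres hexact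
  refine ⟨Submodule.span A {b 0}, ⟨b, rfl⟩, ?_, ?_⟩
  · intro g v hv
    exact hle (locAct_mem_augSub ρ g (span_le_augSub ρ hτ₀ b h0 hα hv))
  · intro τ hτ v
    exact hle (sub_mem_augSub ρ hτ Submodule.mem_top)

end Limit

/-! ### The residual input -/

section Residual

open TensorProduct Polynomial

local notation "Qb" => AlgebraicClosure ℚ

/-- the residual representation on `k ⊗ V`. -/
def resHom : (Qb ≃ₐ[ℚ] Qb) →* Module.End (ResidueField A) (ResidueField A ⊗[A] ρ.V) :=
  (GaloisRepAdic.ofResidualGaloisRep ρ.residual).ρ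

theorem resHom_apply (σ : Qb ≃ₐ[ℚ] Qb) :
    resHom ρ σ = (ρ.ρ σ).baseChange (ResidueField A) := rfl

theorem resHom_tmul (σ : Qb ≃ₐ[ℚ] Qb) (c : ResidueField A) (v : ρ.V) :
    resHom ρ σ (c ⊗ₜ v) = c ⊗ₜ ρ.ρ σ v := by
  rw [resHom_apply, LinearMap.baseChange_tmul]

/-- an inertia element on which the cyclotomic character is `≡ 2`. -/
theorem exists_inertia_det (hp2 : p ≠ 2) (hdet : ρ.DetIsCyclotomic p) :
    ∃ τ₀ ∈ inertiaSet p, LinearMap.det (locAct p ρ τ₀) - 2 ∈ maximalIdeal A := by
  have hp : p.Prime := Fact.out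
  have hcop : Nat.Coprime 2 p := by
    rw [Nat.coprime_comm]
    exact (Nat.Prime.coprime_iff_not_dvd hp).2
      (fun h => hp2 ((Nat.prime_dvd_prime_iff_eq hp Nat.prime_two).1 h))
  obtain ⟨σ, hσI, hσ⟩ := Fermat.Agent.Lib.InertiaCyclo69.exists_mem_inertia_forall_apply_eq_pow hp
    (Fermat.Agent.TW.OrdLocal.PadicPlace97.padicPlace_liesOverPrime p) 1 hcop
  obtain ⟨τ₀, hτσ, hτ₀⟩ :=
    Fermat.Agent.TW.Bridge.LocalInertia97.exists_local_inertia_of_mem_inertia p hσI
  refine ⟨τ₀, hτ₀, ?_⟩
  have h1 := hdet.2 1 σ 2 hσ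
  have h2 : Ideal.span {((p ^ 1 : ℕ) : A)} ≤ maximalIdeal A := by
    rw [Ideal.span_singleton_le_iff_mem, pow_one]
    exact hdet.1
  have h3 := h2 h1
  rw [Nat.cast_ofNat] at h3
  unfold locAct
  rw [hτσ]
  exact h3

variable [IsAdicComplete (maximalIdeal A) A]

/-- **the residual input**: eigen-data of `ρ(τ₀)` and the shape of inertia modulo `𝔪`. -/
theorem exists_data (hp2 : p ≠ 2) (hdet : ρ.DetIsCyclotomic p) (hres : OrdLoc (resHom ρ) p) :
    ∃ τ₀ ∈ inertiaSet p, ∃ (α : A) (b : Module.Basis (Fin 2) A ρ.V),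
      locAct p ρ τ₀ (b 0) = α • b 0 ∧ IsUnit (α - 1) ∧
      ∀ τ ∈ inertiaSet p, ∀ v : ρ.V,
        locAct p ρ τ v - v ∈ Submodule.span A {b 0} ⊔ maximalIdeal A • (⊤ : Submodule A ρ.V) := by
  obtain ⟨τ₀, hτ₀, hdet2⟩ := exists_inertia_det ρ hp2 hdet
  obtain ⟨L, ⟨bb, rfl⟩, hD, hI⟩ := hres
  set f : Module.End A ρ.V := locAct p ρ τ₀ with hf
  set fb : Module.End (ResidueField A) (ResidueField A ⊗[A] ρ.V) :=
    f.baseChange (ResidueField A) with hfb
  have hfbres : resHom ρ (localGaloisToGlobal p τ₀) = fb := rfl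
  -- the triangular shape of `fb`
  obtain ⟨c, hc⟩ := Submodule.mem_span_singleton.1
    (hD τ₀ (bb 0) (Submodule.mem_span_singleton_self _))
  obtain ⟨x, hx⟩ := Submodule.mem_span_singleton.1 (hI τ₀ hτ₀ (bb 1))
  rw [hfbres] at hc hx
  have hc' : fb (bb 0) = c • bb 0 := hc.symm
  have hx' : fb (bb 1) = bb 1 + x • bb 0 := by rw [hx]; abel
  have hrankb : Module.finrank (ResidueField A) (ResidueField A ⊗[A] ρ.V) = 2 := by
    rw [Module.finrank_baseChange, ρ.finrank_eq]
  -- trace and determinant of `fb`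
  have hM00 : LinearMap.toMatrix bb bb fb 0 0 = c := by
    rw [LinearMap.toMatrix_apply, hc']; simp
  have hM10 : LinearMap.toMatrix bb bb fb 1 0 = 0 := by
    rw [LinearMap.toMatrix_apply, hc']; simp
  have hM01 : LinearMap.toMatrix bb bb fb 0 1 = x := by
    rw [LinearMap.toMatrix_apply, hx']; simp
  have hM11 : LinearMap.toMatrix bb bb fb 1 1 = 1 := by
    rw [LinearMap.toMatrix_apply, hx']; simp
  have htr : LinearMap.trace (ResidueField A) _ fb = c + 1 := by
    rw [LinearMap.trace_eq_matrix_trace (ResidueField A) bb fb, Matrix.trace_fin_two, hM00, hM11]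
  have hdt : LinearMap.det fb = c := by
    rw [← LinearMap.det_toMatrix bb fb, Matrix.det_fin_two, hM00, hM11, hM10, hM01]
    ring
  have hcharb : fb.charpoly = X ^ 2 - C (c + 1) * X + C c := by
    rw [HenselSplit68.charpoly_eq hrankb fb, htr, hdt]
  -- `c = 2`
  have hc2 : c = 2 := by
    rw [← hdt, hfb, LinearMap.det_baseChange, ResidueField.algebraMap_eq]
    have : residue A (LinearMap.det f - 2) = 0 := (residue_eq_zero_iff _).2 hdet2
    rw [map_sub, sub_eq_zero] at this
    rw [this]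
    exact map_ofNat (residue A) 2
  have hc1 : c - 1 ≠ 0 := by
    rw [hc2]
    norm_num
  -- the characteristic polynomial of `f` reduces to that of `fb`
  have hmap : f.charpoly.map (residue A) = X ^ 2 - C (c + 1) * X + C c := by
    rw [← hcharb, hfb, LinearMap.charpoly_baseChange, ResidueField.algebraMap_eq]
  have h1 : f.charpoly.eval 1 ∈ maximalIdeal A := by
    rw [← residue_eq_zero_iff, ← Polynomial.eval₂_at_one, ← Polynomial.eval_map, hmap]
    rw [eval_add, eval_sub, eval_mul, eval_pow, eval_X, eval_C, eval_C]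
    ring
  have h2 : IsUnit (f.charpoly.derivative.eval 1) := by
    rw [← residue_ne_zero_iff_isUnit, ← Polynomial.eval₂_at_one, ← Polynomial.eval_map,
      ← Polynomial.derivative_map, hmap]
    simp only [derivative_add, derivative_sub, derivative_X_pow, derivative_mul, derivative_C,
      derivative_X, eval_sub, eval_mul, eval_pow, eval_X, eval_C, zero_mul, zero_add,
      mul_one, Nat.cast_ofNat, one_pow, add_zero]
    intro h
    apply hc1
    linear_combination -h
  obtain ⟨α, β, hu, hβ1, hα1, hfac, hidem, b, hrange, hker⟩ :=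
    HenselSplit68.exists_splitting ρ.finrank_eq f h1 h2
  -- `f b₀ = α b₀`
  have hb0 : f (b 0) = α • b 0 := by
    have : b 0 ∈ LinearMap.range (eOp f hu) := by
      rw [hrange]; exact Submodule.mem_span_singleton_self _
    obtain ⟨v, hv⟩ := this
    rw [← hv]
    exact apply_eOp f hu hfac v
  -- `α ≡ c`
  have hαc : residue A α = c := by
    have hmap2 := congrArg (Polynomial.map (residue A)) hfac
    rw [hmap] at hmap2
    have hβr : residue A β = 1 := by
      have : residue A (β - 1) = 0 := (residue_eq_zero_iff _).2 hβ1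
      rwa [map_sub, map_one, sub_eq_zero] at this
    have h3 := congrArg (Polynomial.eval c) hmap2
    simp only [Polynomial.map_mul, Polynomial.map_sub, Polynomial.map_X, Polynomial.map_C, hβr,
      eval_add, eval_sub, eval_mul, eval_pow, eval_X, eval_C] at h3
    have h4 : (c - residue A α) * (c - 1) = 0 := by
      rw [← h3]; ring
    rcases mul_eq_zero.1 h4 with h5 | h5
    · exact (sub_eq_zero.1 h5).symm
    · exact absurd h5 hc1
  refine ⟨τ₀, hτ₀, α, b, hb0, hα1, fun τ hτ v => ?_⟩
  set w : ρ.V := locAct p ρ τ v - v with hw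
  -- `1 ⊗ w` lies in the residual line
  have hw1 : (1 : ResidueField A) ⊗ₜ[A] w ∈ Submodule.span (ResidueField A) {bb 0} := by
    have := hI τ hτ ((1 : ResidueField A) ⊗ₜ[A] v)
    rw [resHom_tmul] at this
    rw [hw, TensorProduct.tmul_sub]
    exact this
  obtain ⟨y, hy⟩ := Submodule.mem_span_singleton.1 hw1
  -- `f w - α w ∈ 𝔪 V`
  have hker0 : (1 : ResidueField A) ⊗ₜ[A] (f w - α • w) = 0 := by
    have e1 : (1 : ResidueField A) ⊗ₜ[A] (f w) = fb ((1 : ResidueField A) ⊗ₜ[A] w) := by
      rw [hfb, LinearMap.baseChange_tmul]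
    have e2 : (1 : ResidueField A) ⊗ₜ[A] (α • w) = c • ((1 : ResidueField A) ⊗ₜ[A] w) := by
      rw [← TensorProduct.smul_tmul, TensorProduct.smul_tmul', ← hαc, Algebra.smul_def,
        ResidueField.algebraMap_eq, smul_eq_mul]
    rw [TensorProduct.tmul_sub, e1, e2, ← hy, map_smul, hc', smul_comm, sub_self]
  have hmem : f w - α • w ∈ maximalIdeal A • (⊤ : Submodule A ρ.V) := by
    have h5 : f w - α • w ∈ LinearMap.ker (TensorProduct.mk A (A ⧸ maximalIdeal A) ρ.V 1) := by
      rw [LinearMap.mem_ker]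
      exact hker0
    rwa [LinearMap.ker_tensorProductMk] at h5
  -- decompose `w = e w + (1 - e) w`
  have h6 : w = eOp f hu w + ((1 : Module.End A ρ.V) - eOp f hu) w := by
    rw [LinearMap.sub_apply, Module.End.one_apply]; abel
  rw [h6]
  refine Submodule.add_mem_sup ?_ ?_
  · rw [← hrange]; exact LinearMap.mem_range_self _ _
  · rw [one_sub_eOp, LinearMap.smul_apply, gOp_apply]
    exact Submodule.smul_mem _ _ hmem

end Residual

/-! ### The theorem -/

/-- **FLAT + RESIDUALLY ORDINARY ⇒ ORDINARY** (`p` odd). -/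
theorem isOrdinaryAt_of_isFlatAt {A : Type} [CommRing A] [IsLocalRing A] [IsNoetherianRing A]
    [IsAdicComplete (IsLocalRing.maximalIdeal A) A] (ρ : GaloisRepAdic A) {p : ℕ} (hp : p.Prime)
    (hp2 : p ≠ 2) (hdet : ρ.DetIsCyclotomic p) (hflat : ρ.IsFlatAt p)
    (hres : (GaloisRepAdic.ofResidualGaloisRep ρ.residual).IsOrdinaryAt p) : ρ.IsOrdinaryAt p := by
  have : Fact p.Prime := ⟨hp⟩
  have hresLoc : OrdLoc (resHom ρ) p :=
    (Fermat.Agent.ORD.Local.Transport83.isOrdinaryAt_iff (GaloisRepAdic.ofResidualGaloisRep ρ.residual) p).1 hres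
  obtain ⟨τ₀, hτ₀, α, b, hb0, hα1, hI⟩ := exists_data ρ hp2 hdet hresLoc
  rw [Fermat.Agent.ORD.Local.Transport83.isOrdinaryAt_iff ρ p]
  exact ordLoc_of_data ρ hτ₀ b hb0 hα1 hI
    (fun n x hx hx' => Levels68.exact_levels ρ hp2 hdet.1 hflat n hx hx')

end Fermat.Agent.ORD.FlatOrd.FlatOrd68
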