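/-
Program ORD (S33), chapter FLATORD (helper69).  File 2 (Mathlib only): **the ordinary line from
exactness of inertia coinvariants** (pure module theory).

`A` a noetherian local ring with residue field `k`, `V` free of rank `2`, `G` a group acting
`A`-linearly on `V` through `r`, `I ⊆ G` a conjugation-stable subset ("inertia").  Assume
* an `I`-invariant surjective functional `ℓ : V → k`  (the residual representation has an unramified
  quotient line),
* some `τ₀ ∈ I` acts non-trivially on `V / 𝔪 V`,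
* exactness of `I`-coinvariants on every level `V / 𝔪ⁿ V`: for a stable subgroup `W`,
  `W ∩ I_aug (V/𝔪ⁿV) ⊆ I_aug W`.
Then `V` has a `G`-stable line `L = A · b₀` (`b` a basis of `V`) with `(τ - 1) V ⊆ L` for `τ ∈ I`.

`L := {v | ∀ n, v mod 𝔪ⁿ ∈ I_aug (V/𝔪ⁿV)}`; the basis is `(u, v₁)` with `u = τ₀ v₀ - v₀ ∉ 𝔪 V`,
`ℓ v₁ = 1`; `L ∩ A v₁ = 0` because the coinvariants of `V/𝔪ⁿV` are a FAITHFUL `A/𝔪ⁿ`-module
(socle argument + exactness), and `⋂ 𝔪ⁿ = 0`.
-/
import Mathlib

set_option autoImplicit false

noncomputable section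

namespace Fermat.Agent.ORD.FlatOrd.OrdLine69

open IsLocalRing

/-! ### The augmentation subgroup -/

section Aug

variable {G : Type*} (I : Set G) {X : Type*} [AddCommGroup X]

/-- The subgroup generated by the `act τ w - w`, `τ ∈ I`, `w ∈ W`. -/
def augGrp (act : G → X → X) (W : AddSubgroup X) : AddSubgroup X :=
  AddSubgroup.closure {x : X | ∃ τ ∈ I, ∃ w ∈ W, x = act τ w - w}

variable {I}

theorem sub_mem_augGrp {act : G → X → X} {W : AddSubgroup X} {τ : G} (hτ : τ ∈ I) {w : X}
    (hw : w ∈ W) : act τ w - w ∈ augGrp I act W :=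
  AddSubgroup.subset_closure ⟨τ, hτ, w, hw, rfl⟩

end Aug

/-! ### The action on the levels `V / J V` -/

section Level

variable {A : Type*} [CommRing A] {V : Type*} [AddCommGroup V] [Module A V]
  {G : Type*} [Group G] (r : G →* Module.End A V)

/-- The action of `g` on `V / J V`. -/
def lvlAct (J : Ideal A) (g : G) :
    (V ⧸ (J • ⊤ : Submodule A V)) →ₗ[A] (V ⧸ (J • ⊤ : Submodule A V)) :=
  Submodule.mapQ _ _ (r g) (by
    rw [← Submodule.map_le_iff_le_comap, Submodule.map_smul'']
    exact Submodule.smul_mono le_rfl le_top)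

@[simp] theorem lvlAct_mk (J : Ideal A) (g : G) (v : V) :
    lvlAct r J g (Submodule.Quotient.mk v) = Submodule.Quotient.mk (r g v) := rfl

theorem lvlAct_mul (J : Ideal A) (g h : G) (x : V ⧸ (J • ⊤ : Submodule A V)) :
    lvlAct r J (g * h) x = lvlAct r J g (lvlAct r J h x) := by
  induction x using Submodule.Quotient.induction_on with
  | H v => simp [map_mul]

theorem lvlAct_one (J : Ideal A) (x : V ⧸ (J • ⊤ : Submodule A V)) :
    lvlAct r J 1 x = x := by
  induction x using Submodule.Quotient.induction_on with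
  | H v => simp

theorem lvlAct_inv_lvlAct (J : Ideal A) (g : G) (x : V ⧸ (J • ⊤ : Submodule A V)) :
    lvlAct r J g⁻¹ (lvlAct r J g x) = x := by
  rw [← lvlAct_mul, inv_mul_cancel, lvlAct_one]

variable {r} {I : Set G}

/-- The augmentation subgroup of a level is stable under `G` (for conjugation-stable `I`). -/
theorem lvlAct_mem_augGrp (hI : ∀ g : G, ∀ τ ∈ I, g * τ * g⁻¹ ∈ I) (J : Ideal A) (g : G)
    {x : V ⧸ (J • ⊤ : Submodule A V)} (hx : x ∈ augGrp I (fun g => lvlAct r J g) ⊤) :
    lvlAct r J g x ∈ augGrp I (fun g => lvlAct r J g) ⊤ := by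
  unfold augGrp at hx
  induction hx using AddSubgroup.closure_induction with
  | mem x hx =>
    obtain ⟨τ, hτ, w, -, rfl⟩ := hx
    have h1 : lvlAct r J g (lvlAct r J τ w - w) =
        lvlAct r J (g * τ * g⁻¹) (lvlAct r J g w) - lvlAct r J g w := by
      rw [map_sub, lvlAct_mul, lvlAct_mul, lvlAct_inv_lvlAct]
    rw [h1]
    exact sub_mem_augGrp (hI g τ hτ) (AddSubgroup.mem_top _)
  | zero => rw [map_zero]; exact AddSubgroup.zero_mem _
  | add x y _ _ hx hy => rw [map_add]; exact AddSubgroup.add_mem _ hx hy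
  | neg x _ hx => rw [map_neg]; exact AddSubgroup.neg_mem _ hx

/-- The augmentation subgroup of a level is stable under scalars. -/
theorem smul_mem_augGrp (J : Ideal A) (a : A) {x : V ⧸ (J • ⊤ : Submodule A V)}
    (hx : x ∈ augGrp I (fun g => lvlAct r J g) ⊤) :
    a • x ∈ augGrp I (fun g => lvlAct r J g) ⊤ := by
  unfold augGrp at hx
  induction hx using AddSubgroup.closure_induction with
  | mem x hx =>
    obtain ⟨τ, hτ, w, -, rfl⟩ := hx
    have h1 : a • (lvlAct r J τ w - w) = lvlAct r J τ (a • w) - a • w := by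
      rw [smul_sub, map_smul]
    rw [h1]
    exact sub_mem_augGrp hτ (AddSubgroup.mem_top _)
  | zero => rw [smul_zero]; exact AddSubgroup.zero_mem _
  | add x y _ _ hx hy => rw [smul_add]; exact AddSubgroup.add_mem _ hx hy
  | neg x _ hx => rw [smul_neg]; exact AddSubgroup.neg_mem _ hx

end Level

/-! ### Coordinates -/

section Coord

variable {A : Type*} [CommRing A] {V : Type*} [AddCommGroup V] [Module A V]
  {ι : Type*} [Fintype ι] (e : Module.Basis ι A V)

theorem mem_smul_top_iff_repr (J : Ideal A) (x : V) :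
    x ∈ (J • ⊤ : Submodule A V) ↔ ∀ i, e.repr x i ∈ J := by
  constructor
  · intro hx i
    refine Submodule.smul_induction_on hx ?_ ?_
    · intro a ha v _
      rw [map_smul, Finsupp.smul_apply, smul_eq_mul]
      exact J.mul_mem_right _ ha
    · intro x y hx hy
      rw [map_add, Finsupp.add_apply]
      exact J.add_mem hx hy
  · intro h
    rw [← e.sum_repr x]
    exact Submodule.sum_mem _ fun i _ => Submodule.smul_mem_smul (h i) Submodule.mem_top

end Coord

/-! ### Socle elements -/

section Socle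

variable {A : Type*} [CommRing A] [IsLocalRing A]

/-- Every element outside `𝔪ⁿ` has a multiple outside `𝔪ⁿ` which is killed by `𝔪` modulo `𝔪ⁿ`. -/
theorem exists_socle_mul {n : ℕ} {a : A} (ha : a ∉ maximalIdeal A ^ n) :
    ∃ y : A, y * a ∉ maximalIdeal A ^ n ∧ ∀ m ∈ maximalIdeal A, m * (y * a) ∈ maximalIdeal A ^ n := by
  classical
  have hex : ∃ i : ℕ, ∀ y ∈ maximalIdeal A ^ i, y * a ∈ maximalIdeal A ^ n :=
    ⟨n, fun y hy => Ideal.mul_mem_right _ _ hy⟩
  have hpos : Nat.find hex ≠ 0 := by
    intro h0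
    have := Nat.find_spec hex
    rw [h0, pow_zero] at this
    have h1 := this 1 (by simp)
    rw [one_mul] at h1
    exact ha h1
  obtain ⟨i, hi⟩ := Nat.exists_eq_succ_of_ne_zero hpos
  have hmin : ¬ ∀ y ∈ maximalIdeal A ^ i, y * a ∈ maximalIdeal A ^ n :=
    Nat.find_min hex (by omega)
  push Not at hmin
  obtain ⟨y, hy, hya⟩ := hmin
  refine ⟨y, hya, fun m hm => ?_⟩
  have hspec := Nat.find_spec hex
  rw [hi] at hspec
  have : m * y ∈ maximalIdeal A ^ (i + 1) := by
    rw [pow_succ']
    exact Ideal.mul_mem_mul hm hy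
  rw [← mul_assoc]
  exact hspec _ this

end Socle

/-! ### The main theorem -/

section Main

variable {A : Type*} [CommRing A] [IsLocalRing A] [IsNoetherianRing A]
  {V : Type*} [AddCommGroup V] [Module A V] [Module.Free A V] [Module.Finite A V]
  {G : Type*} [Group G]

omit [IsNoetherianRing A] [Module.Free A V] [Module.Finite A V] in
/-- A linear functional to the residue field kills `𝔪 V`. -/
theorem functional_eq_zero_of_mem (ℓ : V →ₗ[A] ResidueField A) {x : V}
    (hx : x ∈ (maximalIdeal A • ⊤ : Submodule A V)) : ℓ x = 0 := by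
  refine Submodule.smul_induction_on hx ?_ ?_
  · intro a ha v _
    rw [map_smul, Algebra.smul_def, ResidueField.algebraMap_eq,
      (residue_eq_zero_iff a).mpr ha, zero_mul]
  · intro x y hx hy
    rw [map_add, hx, hy, add_zero]

/-- **The ordinary line from exactness of coinvariants.** -/
theorem exists_ordinary_line (hrk : Module.finrank A V = 2) (r : G →* Module.End A V)
    (I : Set G) (hI : ∀ g : G, ∀ τ ∈ I, g * τ * g⁻¹ ∈ I)
    (ℓ : V →ₗ[A] ResidueField A) (hℓ : Function.Surjective ℓ)
    (hℓI : ∀ τ ∈ I, ∀ v, ℓ (r τ v) = ℓ v)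
    (τ₀ : G) (hτ₀ : τ₀ ∈ I) (v₀ : V)
    (h₀ : r τ₀ v₀ - v₀ ∉ (maximalIdeal A • ⊤ : Submodule A V))
    (hex : ∀ (n : ℕ) (W : AddSubgroup (V ⧸ (maximalIdeal A ^ n • ⊤ : Submodule A V))),
      (∀ g, ∀ w ∈ W, lvlAct r (maximalIdeal A ^ n) g w ∈ W) →
      ∀ x ∈ W, x ∈ augGrp I (fun g => lvlAct r (maximalIdeal A ^ n) g) ⊤ →
        x ∈ augGrp I (fun g => lvlAct r (maximalIdeal A ^ n) g) W) :
    ∃ L : Submodule A V, (∃ b : Module.Basis (Fin 2) A V, L = Submodule.span A {b 0}) ∧
      (∀ g, ∀ v ∈ L, r g v ∈ L) ∧ (∀ τ ∈ I, ∀ v, r τ v - v ∈ L) := by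
  classical
  let e : Module.Basis (Fin 2) A V := Module.finBasisOfFinrankEq A V hrk
  -- the two basis vectors
  obtain ⟨v₁, hv₁⟩ := hℓ 1
  set u : V := r τ₀ v₀ - v₀ with hu
  have hℓu : ℓ u = 0 := by rw [hu, map_sub, hℓI τ₀ hτ₀, sub_self]
  -- coordinates of `ℓ`
  have hℓrepr : ∀ x : V, ℓ x = residue A (e.repr x 0) * ℓ (e 0) + residue A (e.repr x 1) * ℓ (e 1) := by
    intro x
    conv_lhs => rw [← e.sum_repr x]
    rw [map_sum, Fin.sum_univ_two, map_smul, map_smul, Algebra.smul_def, Algebra.smul_def,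
      ResidueField.algebraMap_eq]
  -- the determinant of `(u, v₁)` is a unit
  have hdet : IsUnit (e.det ![u, v₁]) := by
    rw [Module.Basis.det_apply, Matrix.det_fin_two]
    simp only [Module.Basis.toMatrix_apply, Matrix.cons_val_zero, Matrix.cons_val_one]
    by_contra hnu
    have hm : e.repr u 0 * e.repr v₁ 1 - e.repr v₁ 0 * e.repr u 1 ∈ maximalIdeal A := hnu
    have hres := (residue_eq_zero_iff _).mpr hm
    rw [map_sub, map_mul, map_mul] at hres
    have h1 := (hℓrepr u).symm
    rw [hℓu] at h1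
    have h2 := (hℓrepr v₁).symm
    rw [hv₁] at h2
    have hu0 : residue A (e.repr u 0) = 0 := by
      linear_combination (-(residue A (e.repr u 0))) * h2 + (residue A (e.repr v₁ 0)) * h1 +
        (ℓ (e 1)) * hres
    have hu1 : residue A (e.repr u 1) = 0 := by
      linear_combination (-(residue A (e.repr u 1))) * h2 + (residue A (e.repr v₁ 1)) * h1 -
        (ℓ (e 0)) * hres
    apply h₀
    rw [mem_smul_top_iff_repr e]
    intro i
    fin_cases i
    · exact (residue_eq_zero_iff _).mp hu0
    · exact (residue_eq_zero_iff _).mp hu1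
  have hbasis := (e.is_basis_iff_det (v := ![u, v₁])).mpr hdet
  let b : Module.Basis (Fin 2) A V := Module.Basis.mk hbasis.1 (le_of_eq hbasis.2.symm)
  have hb0 : b 0 = u := by simp [b]
  have hb1 : b 1 = v₁ := by simp [b]
  -- the line
  let aug : ∀ n : ℕ, AddSubgroup (V ⧸ (maximalIdeal A ^ n • ⊤ : Submodule A V)) := fun n =>
    augGrp I (fun g => lvlAct r (maximalIdeal A ^ n) g) ⊤
  let L : Submodule A V :=
    { carrier := {v | ∀ n : ℕ, (Submodule.Quotient.mk v :
        V ⧸ (maximalIdeal A ^ n • ⊤ : Submodule A V)) ∈ aug n}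
      zero_mem' := fun n => AddSubgroup.zero_mem _
      add_mem' := fun {a b} ha hb n => by
        rw [Submodule.Quotient.mk_add]
        exact AddSubgroup.add_mem _ (ha n) (hb n)
      smul_mem' := fun c x hx n => by
        rw [Submodule.Quotient.mk_smul]
        exact smul_mem_augGrp _ c (hx n) }
  have hLmem : ∀ v : V, v ∈ L ↔ ∀ n : ℕ, (Submodule.Quotient.mk v :
      V ⧸ (maximalIdeal A ^ n • ⊤ : Submodule A V)) ∈ aug n := fun v => Iff.rfl
  have hsubL : ∀ τ ∈ I, ∀ v, r τ v - v ∈ L := by
    intro τ hτ v n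
    rw [Submodule.Quotient.mk_sub]
    exact sub_mem_augGrp (act := fun g => lvlAct r (maximalIdeal A ^ n) g) hτ
      (w := Submodule.Quotient.mk v) (AddSubgroup.mem_top _)
  have huL : u ∈ L := hsubL τ₀ hτ₀ v₀
  have hstab : ∀ g, ∀ v ∈ L, r g v ∈ L := by
    intro g v hv n
    have := lvlAct_mem_augGrp hI (maximalIdeal A ^ n) g (hv n)
    exact this
  refine ⟨L, ⟨b, ?_⟩, hstab, hsubL⟩
  -- `L = A u`
  apply le_antisymm
  · intro x hx
    -- decompose `x = α u + β v₁`
    have hxdec : x = b.repr x 0 • u + b.repr x 1 • v₁ := by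
      conv_lhs => rw [← b.sum_repr x]
      rw [Fin.sum_univ_two, hb0, hb1]
    set β := b.repr x 1 with hβ
    have hβv : β • v₁ ∈ L := by
      have : β • v₁ = x - b.repr x 0 • u := by
        rw [eq_sub_iff_add_eq, add_comm]
        exact hxdec.symm
      rw [this]
      exact L.sub_mem hx (L.smul_mem _ huL)
    have hβ0 : β = 0 := by
      have hmem : β ∈ ⨅ n : ℕ, maximalIdeal A ^ n := by
        rw [Ideal.mem_iInf]
        intro n
        by_contra hβn
        obtain ⟨y, hyβ, hsoc⟩ := exists_socle_mul hβn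
        set c : A := y * β with hc
        -- `c v ∈ L` for all `v`
        have hcL : ∀ v : V, c • v ∈ L := by
          intro v
          have hvdec : v = b.repr v 0 • u + b.repr v 1 • v₁ := by
            conv_lhs => rw [← b.sum_repr v]
            rw [Fin.sum_univ_two, hb0, hb1]
          rw [hvdec, smul_add, smul_smul, smul_smul]
          refine L.add_mem (L.smul_mem _ huL) ?_
          have : (c * b.repr v 1) • v₁ = (b.repr v 1 * y) • (β • v₁) := by
            rw [smul_smul]
            congr 1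
            rw [hc]
            ring
          rw [this]
          exact L.smul_mem _ hβv
        -- the subgroup `c • (V / 𝔪ⁿ V)`
        let φ : V →ₗ[A] (V ⧸ (maximalIdeal A ^ n • ⊤ : Submodule A V)) :=
          (Submodule.mkQ _).comp (c • (LinearMap.id : V →ₗ[A] V))
        have hφ : ∀ v, φ v = Submodule.Quotient.mk (c • v) := fun v => rfl
        let W : AddSubgroup (V ⧸ (maximalIdeal A ^ n • ⊤ : Submodule A V)) :=
          (LinearMap.range φ).toAddSubgroup
        have hWmem : ∀ x, x ∈ W ↔ ∃ v, φ v = x := fun x => Iff.rfl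
        have hWstab : ∀ g, ∀ w ∈ W, lvlAct r (maximalIdeal A ^ n) g w ∈ W := by
          rintro g _ ⟨v, rfl⟩
          refine ⟨r g v, ?_⟩
          rw [hφ, hφ, lvlAct_mk, map_smul]
        have hWaug : ∀ v, φ v ∈ augGrp I (fun g => lvlAct r (maximalIdeal A ^ n) g) ⊤ :=
          fun v => hcL v n
        have key := hex n W hWstab (φ v₁) ⟨v₁, rfl⟩ (hWaug v₁)
        -- every element of `I_aug W` is `φ z` with `ℓ z = 0`
        have hP : ∀ x ∈ augGrp I (fun g => lvlAct r (maximalIdeal A ^ n) g) W,
            ∃ z : V, ℓ z = 0 ∧ x = φ z := by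
          intro x hx
          unfold augGrp at hx
          induction hx using AddSubgroup.closure_induction with
          | mem x hx =>
            obtain ⟨τ, hτ, w, ⟨v, rfl⟩, rfl⟩ := hx
            refine ⟨r τ v - v, ?_, ?_⟩
            · rw [map_sub, hℓI τ hτ, sub_self]
            · show lvlAct r (maximalIdeal A ^ n) τ (Submodule.Quotient.mk (c • v)) -
                Submodule.Quotient.mk (c • v) = Submodule.Quotient.mk (c • (r τ v - v))
              rw [lvlAct_mk, map_smul, smul_sub, Submodule.Quotient.mk_sub]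
          | zero => exact ⟨0, map_zero _, (map_zero _).symm⟩
          | add x y _ _ hx hy =>
            obtain ⟨z, hz, rfl⟩ := hx
            obtain ⟨z', hz', rfl⟩ := hy
            exact ⟨z + z', by rw [map_add, hz, hz', add_zero], (map_add _ _ _).symm⟩
          | neg x _ hx =>
            obtain ⟨z, hz, rfl⟩ := hx
            exact ⟨-z, by rw [map_neg, hz, neg_zero], (map_neg _ _).symm⟩
        obtain ⟨z, hz, hzeq⟩ := hP _ key
        have hdiff : c • (v₁ - z) ∈ (maximalIdeal A ^ n • ⊤ : Submodule A V) := by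
          rw [← Submodule.Quotient.mk_eq_zero, smul_sub, Submodule.Quotient.mk_sub, sub_eq_zero]
          exact hzeq
        have hmem1 : v₁ - z ∈ (maximalIdeal A • ⊤ : Submodule A V) := by
          rw [mem_smul_top_iff_repr e]
          intro i
          by_contra hi
          have hunit : IsUnit (e.repr (v₁ - z) i) := by
            by_contra hnu
            exact hi hnu
          obtain ⟨t, ht⟩ := hunit
          have hci := (mem_smul_top_iff_repr e _ _).mp hdiff i
          rw [map_smul, Finsupp.smul_apply, smul_eq_mul, ← ht] at hci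
          apply hyβ
          have : c = c * (t : A) * ((t⁻¹ : Aˣ) : A) := by
            rw [mul_assoc, Units.mul_inv, mul_one]
          rw [this]
          exact Ideal.mul_mem_right _ _ hci
        have h0 := functional_eq_zero_of_mem ℓ hmem1
        rw [map_sub, hv₁, hz, sub_zero] at h0
        exact one_ne_zero h0
      rw [Ideal.iInf_pow_eq_bot_of_isLocalRing (maximalIdeal A)
        (Ideal.IsMaximal.ne_top inferInstance)] at hmem
      exact hmem
    rw [hxdec, hβ0, zero_smul, add_zero, ← hb0]
    exact Submodule.smul_mem _ _ (Submodule.mem_span_singleton_self _)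
  · rw [Submodule.span_le, Set.singleton_subset_iff, hb0]
    exact huL

end Main

end Fermat.Agent.ORD.FlatOrd.OrdLine69
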