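/-
Program ORD (S33), chapter FLATORD (helper69).  File 1: **STAR and exactness of inertia
coinvariants for ALL finite flat modules of `p`-power order** (not only those killed by `p`).

Input: TW/FF (helper68): function orders, the kernel of reduction `conn`, `Star68` (the case of
modules killed by `p`), closure of local flat models under stable subgroups and quotients.

* `eq_zero_of_cong_of_fixed_tors` : a point of a function order on a `p`-power torsion group which
  reduces to the unit point and is fixed by inertia is trivial (`(M⁰)^I = 0`).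
  Proof: induction on the exponent; `p • x` is again such a point, so `p • x = 0`, and `x` is a
  point of the function order restricted to the `p`-torsion subgroup, where `Star68` applies.
* `starTors`       : STAR for local flat models of `p`-power order (`act`-language of `OrdShape54`).
* `coinvExactTors` : exactness of inertia coinvariants: `W ∩ I_aug V = I_aug W` for a stable `W`.
-/
import Mathlib
import Fermat.Agent.TW.FF.Unr68
import Fermat.Agent.TW.Cnt.OrdShape54

set_option autoImplicit false

noncomputable section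

namespace Fermat.Agent.ORD.FlatOrd.StarGen69

open Fermat.Agent.S19.Shell64 Fermat.Agent.TW.FF.FunOrder68 Fermat.Agent.TW.FF.FlatModel68
open Fermat.Agent.TW.FF.Spec72 Fermat.Agent.TW.FF.Red68 Fermat.Agent.TW.FF.ReducedModel68
open Fermat.Agent.TW.Cnt.OrdShape54 (Iaug sub_mem_Iaug act_mem_Iaug map_mem_Iaug Iaug_top_eq)
open Fermat.Agent.TW.Cnt.AdmFlat72 (act_zero act_add)

variable {p : ℕ} [Fact p.Prime]

/-- `V` is a `p`-power torsion group. -/
def IsPTors (p : ℕ) (V : Type) [AddCommGroup V] : Prop := ∀ v : V, ∃ n : ℕ, p ^ n • v = 0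

section Core

variable {M : Type} [AddCommGroup M] [DistribMulAction (GQp p) M]
  {H : Subalgebra ℤ_[p] (M → PadicAlgCl p)}

theorem smul_nsmul_comm' (τ : GQp p) (n : ℕ) (x : M) : τ • (n • x) = n • (τ • x) :=
  map_nsmul (DistribSMul.toAddMonoidHom M τ) n x

/-- **`(M⁰)^I = 0`** for a function order on a `p`-power torsion group (`p` odd). -/
theorem eq_zero_of_cong_of_fixed_tors (hp2 : p ≠ 2) (hH : IsFunOrder ℤ_[p] ℚ_[p] H)
    (htors : IsPTors p M) {x : M} (hx : x ∈ conn hH)
    (hfix : ∀ τ ∈ inertiaSet p, τ • x = x) : x = 0 := by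
  obtain ⟨n, hn⟩ := htors x
  induction n generalizing x with
  | zero => simpa using hn
  | succ n ih =>
    have hz : p • x = 0 := by
      apply ih (x := p • x) (nsmul_mem hx p)
      · intro τ hτ
        rw [smul_nsmul_comm', hfix τ hτ]
      · rw [← mul_nsmul, ← pow_succ']
        exact hn
    -- the `p`-torsion subgroup
    let W : AddSubgroup M :=
      { carrier := {m | p • m = 0}
        zero_mem' := nsmul_zero p
        add_mem' := by
          intro a b ha hb
          show p • (a + b) = 0
          rw [nsmul_add, ha, hb, add_zero]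
        neg_mem' := by
          intro a ha
          show p • (-a) = 0
          rw [smul_neg, show p • a = 0 from ha, neg_zero] }
    have hW : ∀ (σ : GQp p) (m : M), m ∈ W → σ • m ∈ W := by
      intro σ m hm
      show p • (σ • m) = 0
      rw [← smul_nsmul_comm', show p • m = 0 from hm, smul_zero]
    let _ := Fermat.Agent.TW.FF.ClosureSub68.subAction W hW
    have hres := Fermat.Agent.TW.FF.ClosureSub68.IsFunOrder.restrict W hW hH
    have hkillW : ∀ m : W, p • m = 0 := fun m => Subtype.ext (by
      rw [AddSubgroup.coe_nsmul]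
      exact m.2)
    have h1 : (⟨x, hz⟩ : W) ∈ conn hres := by
      rw [mem_conn_iff]
      exact (cong_resAlg_iff H W ⟨x, hz⟩ 0).mpr hx
    have hfixW : ∀ τ ∈ inertiaSet p, τ • (⟨x, hz⟩ : W) = ⟨x, hz⟩ := fun τ hτ =>
      Subtype.ext (hfix τ hτ)
    have := Fermat.Agent.TW.FF.Star68.eq_zero_of_cong_of_fixed hp2
      (Fermat.Agent.TW.FF.Unr68.unr p) hres hkillW h1 hfixW
    exact congrArg Subtype.val this

end Core

/-! ### STAR for local flat models of `p`-power order -/

/-- **STAR** for a local flat model of `p`-power order (`p` odd): an element fixed by inertia and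
lying in the augmentation subgroup of inertia is zero. -/
theorem starTors (hp2 : p ≠ 2) {V : Type} [AddCommGroup V] [Finite V] {act : GQp p → V → V}
    (hV : LocalFlatModel p V act) (htors : IsPTors p V) {x : V}
    (hfix : ∀ τ ∈ inertiaSet p, act τ x = x) (hx : x ∈ Iaug p act ⊤) : x = 0 := by
  obtain ⟨H, i1, i2, hfin, -, -, e, hmul, hact⟩ := hV
  let _ := galDistribMulAction (F := ℚ_[p]) e hmul
  have hH : IsFunOrder ℤ_[p] ℚ_[p] (redAlg e) := isFunOrder_redAlg (F := ℚ_[p]) e hmul
  have hsm : ∀ (σ : GQp p) (m : V), σ • m = act σ m := fun σ m =>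
    (act_eq_galSmul e act hact σ m).symm
  rw [Iaug_top_eq] at hx
  have hset : {w : V | ∃ τ ∈ inertiaSet p, ∃ v : V, w = act τ v - v} =
      {w : V | ∃ τ ∈ inertiaSet p, ∃ v : V, w = τ • v - v} := by
    ext w
    constructor
    · rintro ⟨τ, hτ, v, rfl⟩
      exact ⟨τ, hτ, v, by rw [hsm]⟩
    · rintro ⟨τ, hτ, v, rfl⟩
      exact ⟨τ, hτ, v, by rw [hsm]⟩
  rw [hset] at hx
  exact eq_zero_of_cong_of_fixed_tors hp2 hH htors (closure_le_conn hH hx)
    (fun τ hτ => by rw [hsm]; exact hfix τ hτ)

/-- **Exactness of inertia coinvariants** on local flat models of `p`-power order: for a stable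
subgroup `W` of `V`, `W ∩ I_aug V ⊆ I_aug W`. -/
theorem coinvExactTors (hp2 : p ≠ 2) {V : Type} [AddCommGroup V] [Finite V] {act : GQp p → V → V}
    (hV : LocalFlatModel p V act) (htors : IsPTors p V) (W : AddSubgroup V)
    (hW : ∀ τ, ∀ v ∈ W, act τ v ∈ W) {x : V} (hxW : x ∈ W) (hx : x ∈ Iaug p act ⊤) :
    x ∈ Iaug p act W := by
  set J : AddSubgroup V := Iaug p act W with hJ
  have hJstab : ∀ τ n, n ∈ J → act τ n ∈ J := fun τ n hn => act_mem_Iaug hV hW τ hn
  let a : GQp p → V →+ V := fun τ =>
    { toFun := act τ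
      map_zero' := act_zero hV τ
      map_add' := act_add hV τ }
  let actQ : GQp p → V ⧸ J → V ⧸ J := fun τ =>
    QuotientAddGroup.map J J (a τ) (fun n hn => hJstab τ n hn)
  have hactQ : ∀ τ (m : V), actQ τ (QuotientAddGroup.mk m) = QuotientAddGroup.mk (act τ m) :=
    fun τ m => rfl
  have hQ : LocalFlatModel p (V ⧸ J) actQ :=
    Fermat.Agent.TW.FF.Closure68.LocalFlatModel.quotient hV J hJstab actQ hactQ
  have htorsQ : IsPTors p (V ⧸ J) := by
    intro q
    induction q using QuotientAddGroup.induction_on with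
    | H v =>
      obtain ⟨n, hn⟩ := htors v
      exact ⟨n, by rw [← QuotientAddGroup.mk_nsmul, hn, QuotientAddGroup.mk_zero]⟩
  have hfix : ∀ τ ∈ inertiaSet p, actQ τ (QuotientAddGroup.mk x) = QuotientAddGroup.mk x := by
    intro τ hτ
    rw [hactQ, QuotientAddGroup.eq_iff_sub_mem]
    exact sub_mem_Iaug hτ hxW
  have haug : (QuotientAddGroup.mk x : V ⧸ J) ∈ Iaug p actQ ⊤ :=
    map_mem_Iaug (QuotientAddGroup.mk' J) (fun τ v => (hactQ τ v).symm)
      (fun _ _ => AddSubgroup.mem_top _) hx
  have h0 := starTors hp2 hQ htorsQ hfix haug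
  exact (QuotientAddGroup.eq_zero_iff x).1 h0

end Fermat.Agent.ORD.FlatOrd.StarGen69
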