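/-
Program ORD (S33), chapter FLATORD (helper69).  File 3: **FLAT + RESIDUALLY ORDINARY ⇒ ORDINARY**
(`p` odd), in the frozen Prelude shapes.

`A` a noetherian local ring, `ρ : GaloisRepAdic A` with `ρ.DetIsCyclotomic p`, `ρ.IsFlatAt p`, and
ordinary residual representation.  Then `ρ.IsOrdinaryAt p`.

Proof: at the place `padicPlace p` the local Galois group `G_p = Gal(ℚ̄_p/ℚ_p)` acts on `V` through
`localGaloisToGlobal`; every level `V/𝔪ⁿV` is a local flat model of `p`-power order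
(`TW/FF/LocalOfGlobal68`), so inertia coinvariants are exact on its stable subgroups
(`StarGen69.coinvExactTors`); the residual ordinary line gives an inertia-invariant functional
`V → k`; `det = cyclo` and `p` odd give an inertia element acting non-trivially on `V/𝔪V`;
`OrdLine69.exists_ordinary_line` produces the line.  Bridges: the image of `G_p` is the decomposition
group (`TW/Bridge/LocalGlobal97`), local inertia = global inertia (`TW/Bridge/LocalInertia97`), all
places over `p` are conjugate (`TW/LocalQ/PlaceConj96`).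
-/
import Mathlib
import Fermat.Agent.ORD.FlatOrd.StarGen69
import Fermat.Agent.ORD.FlatOrd.OrdLine69
import Fermat.Agent.TW.FF.LocalOfGlobal68
import Fermat.Agent.TW.Bridge.LocalInertia97
import Fermat.Agent.TW.LocalQ.PlaceConj96
import Fermat.Agent.TW.OrdLocal.PadicPlace97
import Fermat.Agent.ES.GAL.InertiaCyclo91

set_option autoImplicit false

noncomputable section

open scoped TensorProduct Pointwise

namespace Fermat.Agent.ORD.FlatOrd.Main69

open IsLocalRing
open Fermat.Agent.TW.FF.FlatModel68 (GQp LocalFlatModel)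
open Fermat.Agent.TW.FF.Spec72 (inertiaSet)
open Fermat.Agent.ORD.FlatOrd.OrdLine69 Fermat.Agent.ORD.FlatOrd.StarGen69

local notation "Qb" => AlgebraicClosure ℚ
local notation "GQ" => (AlgebraicClosure ℚ ≃ₐ[ℚ] AlgebraicClosure ℚ)

variable {A : Type} [CommRing A] [IsLocalRing A]

/-! ### The local action -/

section Local

variable (p : ℕ) [Fact p.Prime] (ρ : GaloisRepAdic A)

/-- The action of the local Galois group on `V`. -/
def rLoc : GQp p →* Module.End A ρ.V := ρ.ρ.comp (localGaloisToGlobal p)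

theorem rLoc_apply (τ : GQp p) : rLoc p ρ τ = ρ.ρ (localGaloisToGlobal p τ) := rfl

omit [Fact p.Prime] in
/-- The levels are `p`-power torsion. -/
theorem isPTors_level (hpA : (p : A) ∈ maximalIdeal A) (n : ℕ) :
    IsPTors p (ρ.V ⧸ (maximalIdeal A ^ n • ⊤ : Submodule A ρ.V)) := by
  intro x
  refine ⟨n, ?_⟩
  induction x using Submodule.Quotient.induction_on with
  | H v =>
    rw [← Submodule.Quotient.mk_smul, Submodule.Quotient.mk_eq_zero,
      ← Nat.cast_smul_eq_nsmul A (p ^ n) v, Nat.cast_pow]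
    exact Submodule.smul_mem_smul (Ideal.pow_mem_pow hpA n) Submodule.mem_top

end Local

/-! ### The functional from the residual ordinary line -/

section Functional

variable (ρ : GaloisRepAdic A)

/-- The functional `V → k` attached to a basis of the residual representation: the second coordinate
of `1 ⊗ v`. -/
def coordFunctional (b : Module.Basis (Fin 2) (ResidueField A) (ResidueField A ⊗[A] ρ.V)) :
    ρ.V →ₗ[A] ResidueField A :=
  ((b.coord 1).restrictScalars A).comp (TensorProduct.mk A (ResidueField A) ρ.V 1)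

theorem coordFunctional_apply (b : Module.Basis (Fin 2) (ResidueField A) (ResidueField A ⊗[A] ρ.V))
    (v : ρ.V) : coordFunctional ρ b v = b.coord 1 ((1 : ResidueField A) ⊗ₜ[A] v) := rfl

theorem coordFunctional_surjective
    (b : Module.Basis (Fin 2) (ResidueField A) (ResidueField A ⊗[A] ρ.V)) :
    Function.Surjective (coordFunctional ρ b) := by
  -- some value is non-zero
  have hne : ∃ v : ρ.V, coordFunctional ρ b v ≠ 0 := by
    by_contra hall
    push Not at hall
    have hzero : ∀ w : ResidueField A ⊗[A] ρ.V, b.coord 1 w = 0 := by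
      intro w
      induction w using TensorProduct.induction_on with
      | zero => exact map_zero _
      | tmul c v =>
        have : c ⊗ₜ[A] v = c • ((1 : ResidueField A) ⊗ₜ[A] v) := by
          rw [TensorProduct.smul_tmul', smul_eq_mul, mul_one]
        rw [this, map_smul, ← coordFunctional_apply, hall v, smul_zero]
      | add x y hx hy => rw [map_add, hx, hy, add_zero]
    have h1 := hzero (b 1)
    rw [Module.Basis.coord_apply, Module.Basis.repr_self, Finsupp.single_eq_same] at h1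
    exact one_ne_zero h1
  obtain ⟨v, hv⟩ := hne
  intro c
  obtain ⟨a, ha⟩ := residue_surjective (c * (coordFunctional ρ b v)⁻¹)
  refine ⟨a • v, ?_⟩
  rw [map_smul, Algebra.smul_def, ResidueField.algebraMap_eq, ha, inv_mul_cancel_right₀ hv]

/-- The residual ordinary line at a place `P`, in tensor-product form: a basis `b̄` of `k ⊗ V` such that
for `σ` in the inertia group, `1 ⊗ (σ v - v)` is a multiple of `b̄ 0`. -/
theorem exists_residual_basis {p : ℕ}
    (hres : (GaloisRepAdic.ofResidualGaloisRep ρ.residual).IsOrdinaryAt p)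
    (P : ValuationSubring (AlgebraicClosure ℚ)) (hP : P.LiesOverPrime p) :
    ∃ b : Module.Basis (Fin 2) (ResidueField A) (ResidueField A ⊗[A] ρ.V),
      ∀ σ ∈ P.inertiaSubgroupIn ℚ, ∀ v : ρ.V, ∃ c : ResidueField A,
        c • b 0 = (1 : ResidueField A) ⊗ₜ[A] (ρ.ρ σ v) - (1 : ResidueField A) ⊗ₜ[A] v := by
  obtain ⟨Lbar, ⟨bbar, hLbar⟩, -, hIbar⟩ := hres P hP
  refine ⟨bbar, fun σ hσ v => ?_⟩
  have h1 := hIbar σ hσ ((1 : ResidueField A) ⊗ₜ[A] v)
  rw [hLbar, Submodule.mem_span_singleton] at h1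
  obtain ⟨c, hc⟩ := h1
  refine ⟨c, hc.trans ?_⟩
  show ((ρ.ρ σ).baseChange (ResidueField A)) ((1 : ResidueField A) ⊗ₜ[A] v) -
    (1 : ResidueField A) ⊗ₜ[A] v = _
  rw [LinearMap.baseChange_tmul]

end Functional

/-! ### An endomorphism with `det ≠ 1` modulo `𝔪` acts non-trivially on `V / 𝔪 V` -/

section Det

variable {V : Type*} [AddCommGroup V] [Module A V]

theorem exists_sub_notMem_of_det (e : Module.Basis (Fin 2) A V) (f : Module.End A V)
    (hdet : LinearMap.det f - 1 ∉ maximalIdeal A) :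
    ∃ v : V, f v - v ∉ (maximalIdeal A • ⊤ : Submodule A V) := by
  by_contra hall
  push Not at hall
  apply hdet
  have hM : ∀ i j : Fin 2, e.repr (f (e j)) i - (if i = j then 1 else 0) ∈ maximalIdeal A := by
    intro i j
    have h1 := (mem_smul_top_iff_repr e _ _).mp (hall (e j)) i
    rw [map_sub, Finsupp.sub_apply, Module.Basis.repr_self_apply] at h1
    convert h1 using 2
    by_cases h : i = j
    · simp [h]
    · simp [h, Ne.symm h]
  rw [← LinearMap.det_toMatrix e, Matrix.det_fin_two]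
  simp only [LinearMap.toMatrix_apply]
  have h00 := hM 0 0
  have h11 := hM 1 1
  have h01 := hM 0 1
  have h10 := hM 1 0
  simp only [if_true, Fin.isValue, Fin.reduceEq, if_false, sub_zero] at h00 h11 h01 h10
  have key : e.repr (f (e 0)) 0 * e.repr (f (e 1)) 1 - e.repr (f (e 1)) 0 * e.repr (f (e 0)) 1 - 1 =
      (e.repr (f (e 0)) 0 - 1) * (e.repr (f (e 1)) 1 - 1) + (e.repr (f (e 0)) 0 - 1) +
        (e.repr (f (e 1)) 1 - 1) - e.repr (f (e 1)) 0 * e.repr (f (e 0)) 1 := by ring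
  rw [key]
  refine Ideal.sub_mem _ (Ideal.add_mem _ (Ideal.add_mem _ (Ideal.mul_mem_right _ _ h00) h00) h11)
    (Ideal.mul_mem_right _ _ h01)

end Det

/-! ### The theorem at the place `padicPlace p` -/

section AtPadicPlace

variable [IsNoetherianRing A] (p : ℕ) [Fact p.Prime] (ρ : GaloisRepAdic A)

theorem exists_line_padicPlace (hp2 : p ≠ 2) (hdet : ρ.DetIsCyclotomic p) (hflat : ρ.IsFlatAt p)
    (hres : (GaloisRepAdic.ofResidualGaloisRep ρ.residual).IsOrdinaryAt p) :
    ∃ L : Submodule A ρ.V, (∃ b : Module.Basis (Fin 2) A ρ.V, L = Submodule.span A {b 0}) ∧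
      (∀ σ ∈ (padicPlace p).decompositionSubgroup ℚ, ∀ v ∈ L, ρ.ρ σ v ∈ L) ∧
      (∀ σ ∈ (padicPlace p).inertiaSubgroupIn ℚ, ∀ v : ρ.V, ρ.ρ σ v - v ∈ L) := by
  have hp : p.Prime := Fact.out
  have hpA : (p : A) ∈ maximalIdeal A := hdet.1
  have hP0 : (padicPlace p).LiesOverPrime p :=
    Fermat.Agent.TW.OrdLocal.PadicPlace97.padicPlace_liesOverPrime p
  have : Finite (ResidueField A) := hflat.1
  -- the residual line and its functional
  obtain ⟨bbar, hIbar⟩ := exists_residual_basis ρ hres (padicPlace p) hP0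
  let ℓ : ρ.V →ₗ[A] ResidueField A := coordFunctional ρ bbar
  have hℓsurj : Function.Surjective ℓ := coordFunctional_surjective ρ bbar
  have hinert : ∀ τ ∈ inertiaSet p, localGaloisToGlobal p τ ∈ (padicPlace p).inertiaSubgroupIn ℚ :=
    fun τ hτ => (Fermat.Agent.TW.Bridge.LocalInertia97.localGaloisToGlobal_mem_inertia_iff p τ).mpr hτ
  have hℓI : ∀ τ ∈ inertiaSet p, ∀ v, ℓ (rLoc p ρ τ v) = ℓ v := by
    intro τ hτ v
    obtain ⟨c, hc⟩ := hIbar _ (hinert τ hτ) v
    show bbar.coord 1 ((1 : ResidueField A) ⊗ₜ[A] (rLoc p ρ τ v)) =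
      bbar.coord 1 ((1 : ResidueField A) ⊗ₜ[A] v)
    rw [← sub_eq_zero, ← map_sub, rLoc_apply, ← hc, map_smul, Module.Basis.coord_apply,
      Module.Basis.repr_self, Finsupp.single_eq_of_ne (by decide), smul_zero]
  -- an inertia element acting non-trivially modulo `𝔪`
  obtain ⟨σ₀, hσ₀, hσ₀μ⟩ := Fermat.Agent.ES.GAL.InertiaCyclo91.exists_mem_inertia_sq hp hp2
    (padicPlace p) hP0 1
  obtain ⟨τ₀, hτ₀σ, hτ₀⟩ :=
    Fermat.Agent.TW.Bridge.LocalInertia97.exists_local_inertia_of_mem_inertia p hσ₀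
  have hdetσ : LinearMap.det (ρ.ρ σ₀) - 1 ∉ maximalIdeal A := by
    intro hmem
    have h2 := hdet.2 1 σ₀ 2 hσ₀μ
    have hle : Ideal.span {((p ^ 1 : ℕ) : A)} ≤ maximalIdeal A := by
      rw [Ideal.span_le, Set.singleton_subset_iff, pow_one]
      exact hpA
    have h3 := hle h2
    have h4 : (1 : A) ∈ maximalIdeal A := by
      have : (1 : A) = (LinearMap.det (ρ.ρ σ₀) - 1) - (LinearMap.det (ρ.ρ σ₀) - ((2 : ℕ) : A)) := by
        push_cast
        ring
      rw [this]
      exact Ideal.sub_mem _ hmem h3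
    exact (Ideal.ne_top_iff_one _).mp (Ideal.IsMaximal.ne_top inferInstance) h4
  let e : Module.Basis (Fin 2) A ρ.V := Module.finBasisOfFinrankEq A ρ.V ρ.finrank_eq
  obtain ⟨v₀, hv₀⟩ := exists_sub_notMem_of_det e (ρ.ρ σ₀) hdetσ
  have hv₀' : rLoc p ρ τ₀ v₀ - v₀ ∉ (maximalIdeal A • ⊤ : Submodule A ρ.V) := by
    rw [rLoc_apply, hτ₀σ]
    exact hv₀
  -- exactness of coinvariants on the levels
  have hex : ∀ (n : ℕ) (W : AddSubgroup (ρ.V ⧸ (maximalIdeal A ^ n • ⊤ : Submodule A ρ.V))),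
      (∀ g, ∀ w ∈ W, lvlAct (rLoc p ρ) (maximalIdeal A ^ n) g w ∈ W) →
      ∀ x ∈ W, x ∈ augGrp (inertiaSet p) (fun g => lvlAct (rLoc p ρ) (maximalIdeal A ^ n) g) ⊤ →
        x ∈ augGrp (inertiaSet p) (fun g => lvlAct (rLoc p ρ) (maximalIdeal A ^ n) g) W := by
    intro n W hW x hxW hx
    have : Finite (A ⧸ maximalIdeal A) := inferInstanceAs (Finite (ResidueField A))
    have hfin : Finite (A ⧸ maximalIdeal A ^ n) :=
      Ideal.finite_quotient_pow (IsNoetherian.noetherian _) n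
    have hV := Fermat.Agent.TW.FF.LocalOfGlobal68.localFlatModel_of_isFlatAt p ρ hflat
      (maximalIdeal A ^ n) hfin
    have := Fermat.Agent.TW.FF.Closure68.LocalFlatModel.finite hV
    exact coinvExactTors hp2 hV (isPTors_level p ρ hpA n) W hW hxW hx
  obtain ⟨L, hb, hstab, hsub⟩ := exists_ordinary_line ρ.finrank_eq (rLoc p ρ) (inertiaSet p)
    (fun g τ hτ => Fermat.Agent.TW.FF.Red68.conj_mem_inertiaSet hτ g) ℓ hℓsurj hℓI τ₀ hτ₀ v₀ hv₀' hex
  refine ⟨L, hb, ?_, ?_⟩
  · intro σ hσ v hv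
    obtain ⟨τ, rfl⟩ := Fermat.Agent.TW.Bridge.LocalGlobal97.exists_localGaloisToGlobal_eq p hσ
    exact hstab τ v hv
  · intro σ hσ v
    obtain ⟨τ, rfl, hτ⟩ :=
      Fermat.Agent.TW.Bridge.LocalInertia97.exists_local_inertia_of_mem_inertia p hσ
    exact hsub τ hτ v

end AtPadicPlace

/-! ### The main theorem -/

/-- **FLAT + RESIDUALLY ORDINARY ⇒ ORDINARY** (`p` odd). -/
theorem isOrdinaryAt_of_isFlatAt [IsNoetherianRing A] {p : ℕ} (hp : p.Prime) (hp2 : p ≠ 2)
    (ρ : GaloisRepAdic A) (hdet : ρ.DetIsCyclotomic p) (hflat : ρ.IsFlatAt p)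
    (hres : (GaloisRepAdic.ofResidualGaloisRep ρ.residual).IsOrdinaryAt p) :
    ρ.IsOrdinaryAt p := by
  have : Fact p.Prime := ⟨hp⟩
  obtain ⟨L, ⟨b, hLb⟩, hstab, hsub⟩ := exists_line_padicPlace p ρ hp2 hdet hflat hres
  intro P hP
  have hP0 : (padicPlace p).LiesOverPrime p :=
    Fermat.Agent.TW.OrdLocal.PadicPlace97.padicPlace_liesOverPrime p
  obtain ⟨g, hg⟩ := Fermat.Agent.TW.LocalQ.PlaceConj96.exists_smul_eq_of_liesOverPrime hp hP0 hP
  -- `ρ g` as a linear equivalence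
  have hginv : ρ.ρ g⁻¹ * ρ.ρ g = 1 := by rw [← map_mul, inv_mul_cancel, map_one]
  have hginv' : ρ.ρ g * ρ.ρ g⁻¹ = 1 := by rw [← map_mul, mul_inv_cancel, map_one]
  let E : ρ.V ≃ₗ[A] ρ.V := LinearEquiv.ofLinearMap (ρ.ρ g) (ρ.ρ g⁻¹) hginv' hginv
  have hE : ∀ v, E v = ρ.ρ g v := fun v => rfl
  have hconj : ∀ σ : GQ, ∀ v : ρ.V, ρ.ρ σ (E v) = E (ρ.ρ (g⁻¹ * σ * g) v) := by
    intro σ v
    rw [hE, hE, ← Module.End.mul_apply, ← Module.End.mul_apply, ← map_mul, ← map_mul]
    congr 2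
    group
  refine ⟨L.map E.toLinearMap, ⟨b.map E, ?_⟩, ?_, ?_⟩
  · rw [hLb, Submodule.map_span, Set.image_singleton]
    rfl
  · intro σ hσ v hv
    obtain ⟨w, hw, rfl⟩ := hv
    have hσ0 : g⁻¹ * σ * g ∈ (padicPlace p).decompositionSubgroup ℚ := by
      rw [ValuationSubring.decompositionSubgroup, MulAction.mem_stabilizer_iff] at hσ ⊢
      rw [mul_smul, mul_smul, hg, hσ, ← hg, inv_smul_smul]
    exact ⟨ρ.ρ (g⁻¹ * σ * g) w, hstab _ hσ0 w hw, (hconj σ w).symm⟩
  · intro σ hσ v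
    have hσ0 : g⁻¹ * σ * g ∈ (padicPlace p).inertiaSubgroupIn ℚ := by
      have h1 := Fermat.Agent.TW.LocalQ.PlaceConj96.conj_mem_inertiaSubgroupIn hp hP g⁻¹ hσ
      rw [inv_inv, ← hg, inv_smul_smul] at h1
      exact h1
    refine ⟨ρ.ρ (g⁻¹ * σ * g) (E.symm v) - E.symm v, hsub _ hσ0 _, ?_⟩
    show E (ρ.ρ (g⁻¹ * σ * g) (E.symm v) - E.symm v) = ρ.ρ σ v - v
    rw [map_sub, ← hconj, LinearEquiv.apply_symm_apply]

end Fermat.Agent.ORD.FlatOrd.Main69
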